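import Mathlib

set_option autoImplicit false

namespace Fermat.Agent.Lib.Kummer

open NumberField

/-- Kummer's lemma for `p`: a unit of `ℤ[ζ_p]` congruent to a rational integer mod `p`
is a `p`-th power. -/
def KummerLemma (p : ℕ) : Prop :=
  ∀ u : (𝓞 (CyclotomicField p ℚ))ˣ,
    (∃ n : ℤ, (p : 𝓞 (CyclotomicField p ℚ)) ∣
      (u : 𝓞 (CyclotomicField p ℚ)) - (n : 𝓞 (CyclotomicField p ℚ))) →
    ∃ v : (𝓞 (CyclotomicField p ℚ))ˣ, u = v ^ p

/-- First case of Fermat for exponent `p`. -/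
def CaseI (p : ℕ) : Prop :=
  ∀ a b c : ℤ, ¬ (p : ℤ) ∣ a * b * c → a ^ p + b ^ p ≠ c ^ p

/-- Second case of Fermat for exponent `p` (coprime solutions). -/
def CaseII (p : ℕ) : Prop :=
  ∀ a b c : ℤ, a * b * c ≠ 0 → IsCoprime a b → (p : ℤ) ∣ a * b * c → a ^ p + b ^ p ≠ c ^ p

end Fermat.Agent.Lib.Kummer
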