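import Mathlib

set_option autoImplicit false

namespace Fermat.Agent.Lib.Kummer

open Finset Polynomial

/-- Abstract setting for the second case descent. -/
structure DescentRing (A : Type*) [CommRing A] (p : ℕ) (z : A) : Prop where
  prim : IsPrimitiveRoot z p
  prime_l : Prime (z - 1)
  int_mod_l : ∀ x : A, ∃ n : ℤ, z - 1 ∣ x - n
  pow_mod_p : ∀ x : A, ∃ n : ℤ, (p : A) ∣ x ^ p - n
  l_dvd_int : ∀ n : ℤ, z - 1 ∣ (n : A) → (p : ℤ) ∣ n
  assoc : Associated ((z - 1) ^ (p - 1)) (p : A)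
  kummer : ∀ u : Aˣ, (∃ n : ℤ, (p : A) ∣ (u : A) - n) → ∃ v : Aˣ, u = v ^ p

variable {A : Type*} [CommRing A] {p : ℕ} {z : A}

namespace DescentRing

lemma l_dvd_p (S : DescentRing A p z) (hp : p.Prime) : z - 1 ∣ (p : A) :=
  (dvd_pow_self _ (by have := hp.two_le; omega)).trans S.assoc.dvd

lemma p_dvd_l_pow (S : DescentRing A p z) {k : ℕ} (hk : p - 1 ≤ k) : (p : A) ∣ (z - 1) ^ k :=
  S.assoc.symm.dvd.trans (pow_dvd_pow _ hk)

lemma l_dvd_geom_sub (z : A) (i : ℕ) : z - 1 ∣ (∑ j ∈ range i, z ^ j) - (i : A) := by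
  induction i with
  | zero => simp
  | succ n ih =>
    rw [Finset.sum_range_succ]
    have h1 : z - 1 ∣ z ^ n - 1 := by simpa using sub_dvd_pow_sub_pow z 1 n
    have : (∑ j ∈ range n, z ^ j) + z ^ n - ((n + 1 : ℕ) : A)
        = ((∑ j ∈ range n, z ^ j) - (n : A)) + (z ^ n - 1) := by push_cast; ring
    rw [this]
    exact dvd_add ih h1

lemma exists_nat_dvd_add_mul {p : ℕ} (hp : p.Prime) (a b : ℤ) (hb : ¬ (p : ℤ) ∣ b) :
    ∃ i : ℕ, (p : ℤ) ∣ a + i * b := by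
  have hcop : IsCoprime b (p : ℤ) :=
    ((Nat.prime_iff_prime_int.mp hp).coprime_iff_not_dvd.mpr hb).symm
  obtain ⟨r, s, hrs⟩ := hcop
  have hp0 : (0 : ℤ) < p := by exact_mod_cast hp.pos
  refine ⟨((-a * r) % p).toNat, ?_⟩
  rw [Int.toNat_of_nonneg (Int.emod_nonneg _ hp0.ne')]
  have h1 : (p : ℤ) ∣ (-a * r) % p - (-a * r) := by
    have := Int.emod_add_mul_ediv (-a * r) p
    exact ⟨-((-a * r) / p), by linarith⟩
  obtain ⟨t, ht⟩ := h1
  refine ⟨t * b + a * s, ?_⟩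
  have : (-a * r) % p = (-a * r) + p * t := by linarith
  rw [this]
  linear_combination (-a) * hrs

lemma exists_sq_dvd (S : DescentRing A p z) (hp : p.Prime) {x y : A} (hxy : z - 1 ∣ x + y)
    (hy : ¬ z - 1 ∣ y) : ∃ i : ℕ, (z - 1) ^ 2 ∣ x + z ^ i * y := by
  obtain ⟨t, ht⟩ := hxy
  obtain ⟨a, ha⟩ := S.int_mod_l t
  obtain ⟨b, hb⟩ := S.int_mod_l y
  have hpb : ¬ (p : ℤ) ∣ b := by
    intro h
    apply hy
    have h1 : z - 1 ∣ (b : A) := by
      obtain ⟨c, rfl⟩ := h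
      push_cast
      exact Dvd.dvd.mul_right (S.l_dvd_p hp) _
    have := dvd_add hb h1
    simpa using this
  obtain ⟨i, hi⟩ := exists_nat_dvd_add_mul hp a b hpb
  refine ⟨i, ?_⟩
  have h1 : x + z ^ i * y = (z - 1) * (t + (∑ j ∈ range i, z ^ j) * y) := by
    have := mul_geom_sum z i
    linear_combination ht - y * this
  rw [h1, pow_two]
  apply mul_dvd_mul_left
  have h2 : z - 1 ∣ ((a + i * b : ℤ) : A) := by
    obtain ⟨c, hc⟩ := hi
    rw [hc]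
    push_cast
    exact Dvd.dvd.mul_right (S.l_dvd_p hp) _
  have h3 := l_dvd_geom_sub z i
  have : t + (∑ j ∈ range i, z ^ j) * y
      = (t - a) + ((∑ j ∈ range i, z ^ j) - (i : A)) * y + (i : A) * (y - b)
        + ((a + i * b : ℤ) : A) := by
    push_cast; ring
  rw [this]
  exact dvd_add (dvd_add (dvd_add ha (Dvd.dvd.mul_right h3 _)) (Dvd.dvd.mul_left hb _)) h2


variable [IsDomain A] [IsPrincipalIdealRing A]

lemma step_of_sq_dvd (S : DescentRing A p z) (hp : p.Prime) (hp2 : p ≠ 2) {m : ℕ} {x y w : A}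
    {u : Aˣ} (hxy : IsCoprime x y) (hy : ¬ z - 1 ∣ y) (hw : ¬ z - 1 ∣ w)
    (h : x ^ p + y ^ p = u * ((z - 1) ^ (m + 1) * w) ^ p) (h2 : (z - 1) ^ 2 ∣ x + y) :
    1 ≤ m ∧ ∃ (x' y' w' : A) (u' : Aˣ), IsCoprime x' y' ∧ ¬ z - 1 ∣ y' ∧ ¬ z - 1 ∣ w' ∧
      x' ^ p + y' ^ p = u' * ((z - 1) ^ m * w') ^ p := by
  classical
  have hpl := S.prime_l
  set l := z - 1 with hl
  have hl0 : l ≠ 0 := hpl.ne_zero
  have hodd : Odd p := hp.odd_of_ne_two hp2
  have hp3 : 3 ≤ p := by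
    have := hp.two_le
    omega
  set R := nthRootsFinset p (1 : A) with hR
  have hcard : R.card = p := S.prim.card_nthRootsFinset
  have hprod : x ^ p + y ^ p = ∏ η ∈ R, (x + η * y) :=
    S.prim.pow_add_pow_eq_prod_add_mul x y hodd
  have hmem : ∀ η : A, η ∈ R ↔ η ^ p = 1 := fun η => mem_nthRootsFinset hp.pos 1
  have h1R : (1 : A) ∈ R := (hmem 1).2 (one_pow p)
  have hzR : z ∈ R := (hmem z).2 S.prim.pow_eq_one
  have hz'R : z ^ (p - 1) ∈ R :=
    (hmem _).2 (by rw [← pow_mul, mul_comm, pow_mul, S.prim.pow_eq_one, one_pow])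
  have hz1 : z ≠ 1 := S.prim.ne_one hp.one_lt
  have hz'1 : z ^ (p - 1) ≠ 1 := S.prim.pow_ne_one_of_pos_of_lt (by omega) (by omega)
  have hzz' : z ≠ z ^ (p - 1) := by
    intro hh
    have := S.prim.pow_inj (i := 1) (j := p - 1) (by omega) (by omega) (by simpa using hh)
    omega
  have hzmul : z * z ^ (p - 1) = 1 := by
    rw [← pow_succ', Nat.sub_add_cancel hp.one_le, S.prim.pow_eq_one]
  have hdvd : ∀ η ∈ R, l ∣ x + η * y := by
    intro η hη
    have h3 : l ∣ η - 1 := S.prim.sub_one_dvd_sub hp hη h1R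
    have h4 : l ∣ x + y := (dvd_pow_self l two_ne_zero).trans h2
    have : x + η * y = (x + y) + (η - 1) * y := by ring
    rw [this]
    exact dvd_add h4 (Dvd.dvd.mul_right h3 _)
  choose! g hg using hdvd
  have hprodg : ∏ η ∈ R, g η = u * (l ^ m * w) ^ p := by
    have : l ^ p * ∏ η ∈ R, g η = l ^ p * (u * (l ^ m * w) ^ p) := by
      calc l ^ p * ∏ η ∈ R, g η = ∏ η ∈ R, (l * g η) := by
            rw [Finset.prod_mul_distrib, Finset.prod_const, hcard]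
        _ = ∏ η ∈ R, (x + η * y) := Finset.prod_congr rfl (fun η hη => (hg η hη).symm)
        _ = u * (l ^ (m + 1) * w) ^ p := by rw [← hprod, h]
        _ = l ^ p * (u * (l ^ m * w) ^ p) := by ring_nf
    exact mul_left_cancel₀ (pow_ne_zero p hl0) this
  -- key relations between the `g η`
  have hrel : ∀ η ∈ R, ∀ η' ∈ R, η ≠ η' → ∃ ε : Aˣ, g η - g η' = ε * y ∧
      η' * g η - η * g η' = - ε * x := by
    intro η hη η' hη' hne
    obtain ⟨ε, hε⟩ := S.prim.nthRootsFinset_pairwise_associated_sub_one_sub_of_prime hp hη hη' hne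
    refine ⟨ε, ?_, ?_⟩
    · apply mul_left_cancel₀ hl0
      have e1 := hg η hη
      have e2 := hg η' hη'
      linear_combination e2 - e1 - y * hε
    · apply mul_left_cancel₀ hl0
      have e1 := hg η hη
      have e2 := hg η' hη'
      linear_combination η * e2 - η' * e1 + x * hε
  have hcop : ∀ η ∈ R, ∀ η' ∈ R, η ≠ η' → IsCoprime (g η) (g η') := by
    intro η hη η' hη' hne
    obtain ⟨ε, e1, e2⟩ := hrel η hη η' hη' hne
    obtain ⟨r, s, hrs⟩ := hxy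
    have hεinv : ((ε⁻¹ : Aˣ) : A) * ε = 1 := by simp
    refine ⟨((ε⁻¹ : Aˣ) : A) * (s - r * η'), ((ε⁻¹ : Aˣ) : A) * (r * η - s), ?_⟩
    linear_combination (((ε⁻¹ : Aˣ) : A) * s) * e1 - (((ε⁻¹ : Aˣ) : A) * r) * e2
      + (r * x + s * y) * hεinv + hrs
  have hg1 : l ∣ g 1 := by
    have e1 := hg 1 h1R
    rw [one_mul] at e1
    rw [e1, pow_two] at h2
    exact (mul_dvd_mul_iff_left hl0).1 h2
  have hgne : ∀ η ∈ R, η ≠ 1 → ¬ l ∣ g η := by
    intro η hη hne hdv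
    obtain ⟨ε, e1, -⟩ := hrel η hη 1 h1R hne
    have : l ∣ (ε : A) * y := by
      rw [← e1]
      exact dvd_sub hdv hg1
    exact hy (Units.dvd_mul_left.1 this)
  have hm : 1 ≤ m := by
    by_contra hm
    have hm0 : m = 0 := by omega
    have h3 : l ∣ ∏ η ∈ R, g η := hg1.trans (Finset.dvd_prod_of_mem g h1R)
    rw [hprodg, hm0, pow_zero, one_mul] at h3
    exact hw (hpl.dvd_of_dvd_pow (Units.dvd_mul_left.1 h3))
  refine ⟨hm, ?_⟩
  -- each `g η` is associated to a `p`-th power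
  have hpow : ∀ η ∈ R, ∃ d : A, Associated (d ^ p) (g η) := by
    intro η hη
    have hc : IsCoprime (g η) (∏ η' ∈ R.erase η, g η') := by
      apply IsCoprime.prod_right
      intro η' hη'
      exact hcop η hη η' (Finset.mem_of_mem_erase hη') (Finset.ne_of_mem_erase hη').symm
    apply exists_associated_pow_of_associated_pow_mul hc (c := l ^ m * w)
    rw [Finset.mul_prod_erase R g hη, hprodg]
    exact ⟨u, mul_comm _ _⟩
  obtain ⟨d₀, ε₀, hd₀⟩ := hpow 1 h1R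
  obtain ⟨d₁, ε₁, hd₁⟩ := hpow z hzR
  obtain ⟨d₂, ε₂, hd₂⟩ := hpow _ hz'R
  have hrel3 : g z + z * g (z ^ (p - 1)) = (1 + z) * g 1 := by
    apply mul_left_cancel₀ hl0
    have e0 := hg 1 h1R
    have e1 := hg z hzR
    have e2 := hg _ hz'R
    linear_combination (1 + z) * e0 - e1 - z * e2 + y * hzmul
  -- `l ^ m ∣ d₀`
  have hnd : ¬ l ∣ ∏ η ∈ R.erase 1, g η := by
    intro hh
    obtain ⟨η, hη, hdv⟩ := hpl.exists_mem_finset_dvd hh
    exact hgne η (Finset.mem_of_mem_erase hη) (Finset.ne_of_mem_erase hη) hdv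
  have hlg1 : l ^ (m * p) ∣ g 1 := by
    apply hpl.pow_dvd_of_dvd_mul_right (m * p) hnd
    rw [Finset.mul_prod_erase R g h1R, hprodg, mul_pow, ← pow_mul]
    exact Dvd.dvd.mul_left (Dvd.intro _ rfl) _
  have hld₀ : l ^ m ∣ d₀ := by
    rw [← hd₀, Units.dvd_mul_right, pow_mul] at hlg1
    exact (UniqueFactorizationMonoid.pow_dvd_pow_iff_dvd hp.ne_zero).1 hlg1
  obtain ⟨w', hw'⟩ := hld₀
  have hlw' : ¬ l ∣ w' := by
    rintro ⟨t, rfl⟩
    have h3 : l ^ (m * p) * l ^ p ∣ ∏ η ∈ R, g η := by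
      refine Dvd.dvd.trans ?_ (Finset.dvd_prod_of_mem g h1R)
      rw [← hd₀, hw']
      refine Dvd.dvd.mul_right ⟨t ^ p, by ring_nf⟩ _
    rw [hprodg] at h3
    have h4 : l ^ (m * p) * l ^ p ∣ l ^ (m * p) * (u * w ^ p) := by
      have : (u : A) * (l ^ m * w) ^ p = l ^ (m * p) * (u * w ^ p) := by ring
      rwa [this] at h3
    have h5 := (mul_dvd_mul_iff_left (pow_ne_zero _ hl0)).1 h4
    have h6 : l ∣ (u : A) * w ^ p := (dvd_pow_self l hp.ne_zero).trans h5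
    exact hw (hpl.dvd_of_dvd_pow (Units.dvd_mul_left.1 h6))
  -- units
  obtain ⟨zu, hzu⟩ := S.prim.isUnit hp.ne_zero
  obtain ⟨su, hsu⟩ : IsUnit (1 + z) := by
    have := S.prim.geom_sum_isUnit hp.two_le (j := 2)
      ((Nat.coprime_primes Nat.prime_two hp).2 (Ne.symm hp2))
    simpa [Finset.sum_range_succ] using this
  have hε₁inv : (ε₁ : A) * ((ε₁⁻¹ : Aˣ) : A) = 1 := by simp
  have heq : d₁ ^ p + ((zu * ε₂ * ε₁⁻¹ : Aˣ) : A) * d₂ ^ p
      = ((su * ε₀ * ε₁⁻¹ : Aˣ) : A) * (l ^ m * w') ^ p := by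
    rw [← hd₀, ← hd₁, ← hd₂, hw'] at hrel3
    push_cast
    rw [hzu, hsu]
    linear_combination ((ε₁⁻¹ : Aˣ) : A) * hrel3 - d₁ ^ p * hε₁inv
  have hld₂ : ¬ l ∣ d₂ := by
    intro hh
    apply hgne _ hz'R hz'1
    rw [← hd₂]
    exact Dvd.dvd.mul_right (Dvd.dvd.trans hh (dvd_pow_self _ hp.ne_zero)) _
  -- the unit is congruent to an integer
  have hcong : ∃ n : ℤ, (p : A) ∣ ((zu * ε₂ * ε₁⁻¹ : Aˣ) : A) - n := by
    obtain ⟨a₁, ha₁⟩ := S.pow_mod_p d₁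
    obtain ⟨a₂, ha₂⟩ := S.pow_mod_p d₂
    have hpa₂ : ¬ (p : ℤ) ∣ a₂ := by
      intro hh
      apply hld₂
      apply hpl.dvd_of_dvd_pow (n := p)
      have h3 : l ∣ (a₂ : A) := by
        obtain ⟨c, rfl⟩ := hh
        push_cast
        exact Dvd.dvd.mul_right (S.l_dvd_p hp) _
      have := dvd_add ((S.l_dvd_p hp).trans ha₂) h3
      simpa using this
    obtain ⟨r, s, hrs⟩ : IsCoprime a₂ (p : ℤ) :=
      ((Nat.prime_iff_prime_int.mp hp).coprime_iff_not_dvd.mpr hpa₂).symm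
    have hrs' : (r : A) * a₂ + s * p = 1 := by exact_mod_cast congrArg (Int.cast : ℤ → A) hrs
    have hpr : (p : A) ∣ (l ^ m * w') ^ p := by
      rw [mul_pow, ← pow_mul]
      apply Dvd.dvd.mul_right
      apply S.p_dvd_l_pow
      calc p - 1 ≤ p := Nat.sub_le _ _
        _ ≤ m * p := Nat.le_mul_of_pos_left _ hm
    obtain ⟨c₁, hc₁⟩ := ha₁
    obtain ⟨c₂, hc₂⟩ := ha₂
    obtain ⟨c₃, hc₃⟩ := hpr
    set θ : A := ((zu * ε₂ * ε₁⁻¹ : Aˣ) : A) with hθ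
    set υ : A := ((su * ε₀ * ε₁⁻¹ : Aˣ) : A) with hυ
    refine ⟨-a₁ * r, θ * s + r * (υ * c₃ - c₁ - θ * c₂), ?_⟩
    push_cast
    rw [hc₃] at heq
    linear_combination (-θ) * hrs' + r * heq - r * hc₁ - θ * r * hc₂
  obtain ⟨v, hv⟩ := S.kummer _ hcong
  refine ⟨d₁, v * d₂, w', su * ε₀ * ε₁⁻¹, ?_, ?_, hlw', ?_⟩
  · rw [isCoprime_mul_unit_left_right v.isUnit]
    have h3 := hcop z hzR _ hz'R hzz'
    rw [← hd₁, ← hd₂] at h3
    exact (IsCoprime.pow_iff hp.pos hp.pos).1 h3.of_mul_left_left.of_mul_right_left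
  · rw [Units.dvd_mul_left]
    exact hld₂
  · rw [← heq, hv, mul_pow]
    push_cast
    ring

lemma step (S : DescentRing A p z) (hp : p.Prime) (hp2 : p ≠ 2) {m : ℕ} {x y w : A}
    {u : Aˣ} (hxy : IsCoprime x y) (hy : ¬ z - 1 ∣ y) (hw : ¬ z - 1 ∣ w)
    (h : x ^ p + y ^ p = u * ((z - 1) ^ (m + 1) * w) ^ p) :
    1 ≤ m ∧ ∃ (x' y' w' : A) (u' : Aˣ), IsCoprime x' y' ∧ ¬ z - 1 ∣ y' ∧ ¬ z - 1 ∣ w' ∧
      x' ^ p + y' ^ p = u' * ((z - 1) ^ m * w') ^ p := by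
  have hodd : Odd p := hp.odd_of_ne_two hp2
  have hl : z - 1 ∣ x + y := by
    have h1 : z - 1 ∣ x ^ p + y ^ p := by
      rw [h, mul_pow, ← pow_mul]
      exact Dvd.dvd.mul_left (Dvd.dvd.mul_right (dvd_pow_self _ (Nat.mul_ne_zero (Nat.succ_ne_zero m) hp.ne_zero)) _) _
    rw [S.prim.pow_add_pow_eq_prod_add_mul x y hodd] at h1
    obtain ⟨η, hη, hdv⟩ := S.prime_l.exists_mem_finset_dvd h1
    have h1R : (1 : A) ∈ nthRootsFinset p (1 : A) :=
      (mem_nthRootsFinset hp.pos 1).2 (one_pow p)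
    have h3 : z - 1 ∣ η - 1 := S.prim.sub_one_dvd_sub hp hη h1R
    have : x + y = (x + η * y) - (η - 1) * y := by ring
    rw [this]
    exact dvd_sub hdv (Dvd.dvd.mul_right h3 _)
  obtain ⟨i, hi⟩ := S.exists_sq_dvd hp hl hy
  have hzi : (z ^ i) ^ p = 1 := by
    rw [← pow_mul, mul_comm, pow_mul, S.prim.pow_eq_one, one_pow]
  have hu : IsUnit (z ^ i) := (S.prim.isUnit hp.ne_zero).pow i
  refine S.step_of_sq_dvd hp hp2 (x := x) (y := z ^ i * y) (w := w) (u := u)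
    ((isCoprime_mul_unit_left_right hu _ _).2 hxy) ?_ hw ?_ hi
  · rwa [hu.dvd_mul_left]
  · rw [mul_pow, hzi, one_mul, h]

theorem no_solution (S : DescentRing A p z) (hp : p.Prime) (hp2 : p ≠ 2) :
    ∀ (m : ℕ) (x y w : A) (u : Aˣ), IsCoprime x y → ¬ z - 1 ∣ y → ¬ z - 1 ∣ w →
      x ^ p + y ^ p ≠ u * ((z - 1) ^ (m + 1) * w) ^ p := by
  intro m
  induction m with
  | zero =>
    intro x y w u hxy hy hw h
    have := (S.step hp hp2 hxy hy hw h).1
    omega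
  | succ m ih =>
    intro x y w u hxy hy hw h
    obtain ⟨-, x', y', w', u', hxy', hy', hw', h'⟩ := S.step hp hp2 hxy hy hw h
    exact ih x' y' w' u' hxy' hy' hw' h'

theorem caseII_int (S : DescentRing A p z) (hp : p.Prime) (hp2 : p ≠ 2) {a b c : ℤ}
    (hab : IsCoprime a b) (hc : c ≠ 0) (hpc : (p : ℤ) ∣ c) : a ^ p + b ^ p ≠ c ^ p := by
  intro h
  have hpp : Prime (p : ℤ) := Nat.prime_iff_prime_int.mp hp
  have hfin : FiniteMultiplicity (p : ℤ) c := by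
    rw [Int.finiteMultiplicity_iff]
    refine ⟨?_, hc⟩
    simpa using hp.ne_one
  obtain ⟨c', hc', hpc'⟩ := hfin.exists_eq_pow_mul_and_not_dvd
  set k := multiplicity (p : ℤ) c with hk
  have hk1 : 1 ≤ k := by
    by_contra hk0
    have : k = 0 := by omega
    rw [this, pow_zero, one_mul] at hc'
    exact hpc' (hc' ▸ hpc)
  have hpb : ¬ (p : ℤ) ∣ b := by
    intro hb
    have ha : (p : ℤ) ∣ a := by
      apply hpp.dvd_of_dvd_pow (n := p)
      have : a ^ p = c ^ p - b ^ p := by linarith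
      rw [this]
      exact dvd_sub (Dvd.dvd.trans hpc (dvd_pow_self _ hp.ne_zero))
        (Dvd.dvd.trans hb (dvd_pow_self _ hp.ne_zero))
    exact hpp.not_isUnit (hab.isUnit_of_dvd' ha hb)
  obtain ⟨ε, hε⟩ := S.assoc
  have hm : ∃ m, (p - 1) * k = m + 1 := by
    refine ⟨(p - 1) * k - 1, ?_⟩
    have : 1 ≤ (p - 1) * k := Nat.mul_pos (by have := hp.two_le; omega) hk1
    omega
  obtain ⟨m, hm⟩ := hm
  refine S.no_solution hp hp2 m (a : A) (b : A) (c' : A) (ε ^ (k * p)) hab.intCast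
    (fun hh => hpb (S.l_dvd_int b hh)) (fun hh => hpc' (S.l_dvd_int c' hh)) ?_
  have h' : (a : A) ^ p + (b : A) ^ p = (c : A) ^ p := by exact_mod_cast congrArg (Int.cast : ℤ → A) h
  rw [h', ← hm, hc']
  push_cast
  rw [← hε]
  ring

end DescentRing

end Fermat.Agent.Lib.Kummer
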