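import Mathlib
import Fermat.Agent.Lib.Kummer.Defs
import Fermat.Agent.Lib.Kummer.Descent

set_option autoImplicit false

namespace Fermat.Agent.Lib.Kummer

open NumberField

section ring

variable {p : ℕ} [hp : Fact p.Prime] {K : Type*} [Field K] [NumberField K]
  [IsCyclotomicExtension {p} ℚ K] {ζ : K} (hζ : IsPrimitiveRoot ζ p)

include hζ in
lemma int_mod_l (x : 𝓞 K) : ∃ n : ℤ, hζ.toInteger - 1 ∣ x - n := by
  have hx : x ∈ Algebra.adjoin ℤ {hζ.toInteger} := by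
    rw [IsCyclotomicExtension.Rat.adjoin_singleton_eq_top hζ]
    exact Algebra.mem_top
  induction hx using Algebra.adjoin_induction with
  | mem x hx =>
    rw [Set.mem_singleton_iff] at hx
    exact ⟨1, by simp [hx]⟩
  | algebraMap r => exact ⟨r, by simp⟩
  | add x y _ _ hx hy =>
    obtain ⟨a, ha⟩ := hx
    obtain ⟨b, hb⟩ := hy
    refine ⟨a + b, ?_⟩
    have : x + y - ((a + b : ℤ) : 𝓞 K) = (x - a) + (y - b) := by push_cast; ring
    rw [this]
    exact dvd_add ha hb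
  | mul x y _ _ hx hy =>
    obtain ⟨a, ha⟩ := hx
    obtain ⟨b, hb⟩ := hy
    refine ⟨a * b, ?_⟩
    have : x * y - ((a * b : ℤ) : 𝓞 K) = (x - a) * y + a * (y - b) := by push_cast; ring
    rw [this]
    exact dvd_add (Dvd.dvd.mul_right ha _) (Dvd.dvd.mul_left hb _)

include hζ in
lemma pow_mod_p (x : 𝓞 K) : ∃ n : ℤ, (p : 𝓞 K) ∣ x ^ p - n := by
  have hx : x ∈ Algebra.adjoin ℤ {hζ.toInteger} := by
    rw [IsCyclotomicExtension.Rat.adjoin_singleton_eq_top hζ]
    exact Algebra.mem_top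
  induction hx using Algebra.adjoin_induction with
  | mem x hx =>
    rw [Set.mem_singleton_iff] at hx
    refine ⟨1, ?_⟩
    rw [hx, hζ.toInteger_isPrimitiveRoot.pow_eq_one]
    simp
  | algebraMap r => exact ⟨r ^ p, by simp⟩
  | add x y _ _ hx hy =>
    obtain ⟨a, ha⟩ := hx
    obtain ⟨b, hb⟩ := hy
    obtain ⟨r, hr⟩ := exists_add_pow_prime_eq hp.out x y
    refine ⟨a + b, ?_⟩
    have : (x + y) ^ p - ((a + b : ℤ) : 𝓞 K) = (x ^ p - a) + (y ^ p - b) + p * (x * y * r) := by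
      rw [hr]; push_cast; ring
    rw [this]
    exact dvd_add (dvd_add ha hb) (Dvd.intro _ rfl)
  | mul x y _ _ hx hy =>
    obtain ⟨a, ha⟩ := hx
    obtain ⟨b, hb⟩ := hy
    refine ⟨a * b, ?_⟩
    have : (x * y) ^ p - ((a * b : ℤ) : 𝓞 K) = (x ^ p - a) * y ^ p + a * (y ^ p - b) := by
      push_cast; ring
    rw [this]
    exact dvd_add (Dvd.dvd.mul_right ha _) (Dvd.dvd.mul_left hb _)

lemma descentRing
    (hk : ∀ u : (𝓞 K)ˣ, (∃ n : ℤ, (p : 𝓞 K) ∣ (u : 𝓞 K) - n) → ∃ v : (𝓞 K)ˣ, u = v ^ p) :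
    DescentRing (𝓞 K) p hζ.toInteger where
  prim := hζ.toInteger_isPrimitiveRoot
  prime_l := hζ.zeta_sub_one_prime'
  int_mod_l := int_mod_l hζ
  pow_mod_p := pow_mod_p hζ
  l_dvd_int := fun _ h => (IsCyclotomicExtension.Rat.zeta_sub_one_dvd_intCast_iff' p hζ).1 h
  assoc := IsCyclotomicExtension.Rat.associated_zeta_sub_one_pow_prime p hζ
  kummer := hk

end ring

/-- Second case when `p ∣ c`. -/
theorem caseII_aux (p : ℕ) [hp : Fact p.Prime] (hp2 : p ≠ 2)
    (hpid : IsPrincipalIdealRing (𝓞 (CyclotomicField p ℚ))) (hk : KummerLemma p)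
    {a b c : ℤ} (hab : IsCoprime a b) (hc : c ≠ 0) (hpc : (p : ℤ) ∣ c) :
    a ^ p + b ^ p ≠ c ^ p := by
  have : NeZero p := ⟨hp.out.ne_zero⟩
  have : NeZero ((p : ℕ) : ℚ) := ⟨Nat.cast_ne_zero.mpr hp.out.ne_zero⟩
  have : IsCyclotomicExtension {p} ℚ (CyclotomicField p ℚ) :=
    CyclotomicField.isCyclotomicExtension p ℚ
  exact (descentRing (IsCyclotomicExtension.zeta_spec p ℚ (CyclotomicField p ℚ)) hk).caseII_int
    hp.out hp2 hab hc hpc

lemma isCoprime_of_eq {p : ℕ} (hp0 : p ≠ 0) {a b c : ℤ} (hab : IsCoprime a b)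
    (h : a ^ p + b ^ p = c ^ p) : IsCoprime a c := by
  have h1 : IsCoprime (a ^ p) (b ^ p) := hab.pow
  have h2 : IsCoprime (a ^ p) (c ^ p) := by
    rw [← h]
    have := h1.add_mul_left_right 1
    rwa [mul_one, add_comm] at this
  exact (IsCoprime.pow_iff (Nat.pos_of_ne_zero hp0) (Nat.pos_of_ne_zero hp0)).1 h2

theorem caseII (p : ℕ) [hp : Fact p.Prime] (hp2 : p ≠ 2)
    (hpid : IsPrincipalIdealRing (𝓞 (CyclotomicField p ℚ))) (hk : KummerLemma p) :
    CaseII p := by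
  intro a b c habc hab hdvd h
  have hpp : Prime (p : ℤ) := Nat.prime_iff_prime_int.mp hp.out
  have hodd : Odd p := hp.out.odd_of_ne_two hp2
  have ha : a ≠ 0 := fun h0 => habc (by simp [h0])
  have hb : b ≠ 0 := fun h0 => habc (by simp [h0])
  have hc : c ≠ 0 := fun h0 => habc (by simp [h0])
  rcases hpp.dvd_or_dvd hdvd with h1 | h1
  · rcases hpp.dvd_or_dvd h1 with h2 | h2
    · -- `p ∣ a` : `c ^ p + (-b) ^ p = a ^ p`
      have hbc : IsCoprime b c :=
        isCoprime_of_eq hp.out.ne_zero hab.symm (by rw [add_comm]; exact h)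
      refine caseII_aux p hp2 hpid hk (a := c) (b := -b) (c := a) hbc.symm.neg_right ha h2 ?_
      rw [hodd.neg_pow]
      linarith
    · have hac : IsCoprime a c := isCoprime_of_eq hp.out.ne_zero hab h
      refine caseII_aux p hp2 hpid hk (a := c) (b := -a) (c := b) hac.symm.neg_right hb h2 ?_
      rw [hodd.neg_pow]
      linarith
  · exact caseII_aux p hp2 hpid hk hab hc h1 h

end Fermat.Agent.Lib.Kummer
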