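import Mathlib
import Fermat.Prelude.Def_FLTPrelim_FreyPackage
import Fermat.Agent.Lib.Kummer.Defs

set_option autoImplicit false

namespace Fermat.Agent.Lib.Kummer

/-- There is no Frey package whose exponent satisfies both cases of Fermat. -/
theorem no_freyPackage {p : ℕ} (hI : CaseI p) (hII : CaseII p) (P : FreyPackage)
    (hp : P.p = p) : False := by
  have h := P.hFLT
  rw [hp] at h
  have hcop : IsCoprime P.a P.b := by
    rw [Int.isCoprime_iff_gcd_eq_one]
    have := P.hgcdab
    rw [← Int.coe_gcd] at this
    exact_mod_cast this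
  by_cases hd : (p : ℤ) ∣ P.a * P.b * P.c
  · exact hII P.a P.b P.c P.habc0 hcop hd h
  · exact hI P.a P.b P.c hd h

end Fermat.Agent.Lib.Kummer
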