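import Fermat.Agent.Lib.Kummer.KummerGeneral

set_option autoImplicit false

open NumberField Polynomial

namespace Fermat.Agent.Lib.Kummer

variable (p : ℕ) [hp : Fact p.Prime]
variable {K : Type*} [Field K] [NumberField K] [IsCyclotomicExtension {p} ℚ K]
  {ζ : K} (hζ : IsPrimitiveRoot ζ p)

theorem fst_ty_pow (k : ℕ) : TrivSqZeroExt.fst (ty p ^ k) = (1 + tx p) ^ k := by
  rw [TrivSqZeroExt.fst_pow]
  simp [ty]

theorem snd_ty_pow (k : ℕ) : TrivSqZeroExt.snd (ty p ^ k) = (k : TB p) * (1 + tx p) ^ k := by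
  rw [TrivSqZeroExt.snd_pow]
  cases k with
  | zero => simp
  | succ k =>
    simp only [ty, TrivSqZeroExt.fst_add, TrivSqZeroExt.fst_inl, TrivSqZeroExt.fst_inr, add_zero,
      TrivSqZeroExt.snd_add, TrivSqZeroExt.snd_inl, TrivSqZeroExt.snd_inr, zero_add,
      Nat.pred_succ, smul_eq_mul, nsmul_eq_mul]
    rw [pow_succ]

theorem fst_phi_geom (hp2 : p ≠ 2) (i : ℕ) :
    TrivSqZeroExt.fst (phi p hζ hp2 (∑ k ∈ Finset.range i, hζ.toInteger ^ k)) =
      ∑ k ∈ Finset.range i, (1 + tx p) ^ k := by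
  rw [map_sum]
  simp_rw [map_pow, phi_zeta]
  induction i with
  | zero => simp
  | succ i ih => rw [Finset.sum_range_succ, Finset.sum_range_succ, TrivSqZeroExt.fst_add, ih, fst_ty_pow]

theorem snd_phi_geom (hp2 : p ≠ 2) (i : ℕ) :
    TrivSqZeroExt.snd (phi p hζ hp2 (∑ k ∈ Finset.range i, hζ.toInteger ^ k)) =
      ∑ k ∈ Finset.range i, (k : TB p) * (1 + tx p) ^ k := by
  rw [map_sum]
  simp_rw [map_pow, phi_zeta]
  induction i with
  | zero => simp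
  | succ i ih => rw [Finset.sum_range_succ, Finset.sum_range_succ, TrivSqZeroExt.snd_add, ih, snd_ty_pow]

theorem fst_phi_zeta (hp2 : p ≠ 2) :
    TrivSqZeroExt.fst (phi p hζ hp2 hζ.toInteger) = 1 + tx p := by
  rw [phi_zeta]; simp [ty]

theorem snd_phi_zeta (hp2 : p ≠ 2) :
    TrivSqZeroExt.snd (phi p hζ hp2 hζ.toInteger) = 1 + tx p := by
  rw [phi_zeta]; simp [ty]

theorem zmod_smul_TB (c : ℕ) (b : TB p) : ((c : ZMod p)) • b = (c : TB p) * b := by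
  rw [Algebra.smul_def, map_natCast]

theorem ofNat_smul_TB (c : ℕ) [c.AtLeastTwo] (b : TB p) :
    (OfNat.ofNat c : ZMod p) • b = (OfNat.ofNat c : TB p) * b := by
  rw [Algebra.smul_def, map_ofNat]

/-- Variant of `kummer_of_certificate` with a matrix of natural numbers. -/
theorem kummer_of_certificate' (hp2 : p ≠ 2) (r m : ℕ) (hr : r = (p - 1) / 2) (hm : m = p - 2)
    (Mn : Fin r → Fin m → ℕ) (M' : Matrix (Fin m) (Fin r) (ZMod p))
    (hM : (Matrix.of fun j d => ((Mn j d : ℕ) : ZMod p)) * M' = 1)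
    (η : Fin r → (𝓞 K)ˣ)
    (hη : ∀ j, TrivSqZeroExt.snd (phi p hζ hp2 (η j : 𝓞 K)) =
      TrivSqZeroExt.fst (phi p hζ hp2 (η j : 𝓞 K)) * ∑ d, (Mn j d : TB p) * tx p ^ (d : ℕ))
    (u : (𝓞 K)ˣ) (n : ℤ) (hu : (p : 𝓞 K) ∣ (u : 𝓞 K) - n) : ∃ v : (𝓞 K)ˣ, u = v ^ p := by
  refine kummer_of_certificate p hζ hp2 r m hr hm _ M' hM η (fun j => ?_) u n hu
  rw [hη j]
  congr 1
  refine Finset.sum_congr rfl fun d _ => ?_
  rw [Matrix.of_apply, zmod_smul_TB]

end Fermat.Agent.Lib.Kummer
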