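import Fermat.Agent.Lib.Kummer.Defs
import Fermat.Agent.Lib.Kummer.KummerCert

set_option autoImplicit false

open NumberField Polynomial

namespace Fermat.Agent.Lib.Kummer

theorem kummerLemma_eleven : KummerLemma 11 := by
  have hM : (Matrix.of fun j d => (((![![1,0,0,0,0,0,0,0,0],![6,3,4,9,1,5,3,4,9],![1,8,7,5,0,2,9,5,3],![7,4,9,9,4,2,10,4,0],![2,2,10,2,3,6,0,0,0]] : Fin 5 → Fin 9 → ℕ) j d : ℕ) : ZMod 11)) *
      (!![1,0,0,0,0;0,6,7,10,4;0,0,0,0,0;9,9,8,3,9;0,0,0,0,0;4,6,6,3,5;0,0,0,0,0;9,1,5,4,9;0,0,0,0,0] : Matrix (Fin 9) (Fin 5) (ZMod 11)) = 1 := by decide +kernel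
  have : Fact (Nat.Prime 11) := ⟨by norm_num⟩
  have : IsCyclotomicExtension {11} ℚ (CyclotomicField 11 ℚ) := CyclotomicField.isCyclotomicExtension 11 ℚ
  rintro u ⟨n, hn⟩
  have hζ := IsCyclotomicExtension.zeta_spec 11 ℚ (CyclotomicField 11 ℚ)
  have hζ' := hζ.toInteger_isPrimitiveRoot
  have hx : tx 11 ^ 9 = 0 := tx_pow 11
  have hp : (11 : TB 11) = 0 := by exact_mod_cast natCast_TB 11
  refine kummer_of_certificate' 11 hζ (by norm_num) 5 9 (by norm_num) (by norm_num)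
    ![![1,0,0,0,0,0,0,0,0],![6,3,4,9,1,5,3,4,9],![1,8,7,5,0,2,9,5,3],![7,4,9,9,4,2,10,4,0],![2,2,10,2,3,6,0,0,0]]
    !![1,0,0,0,0;0,6,7,10,4;0,0,0,0,0;9,9,8,3,9;0,0,0,0,0;4,6,6,3,5;0,0,0,0,0;9,1,5,4,9;0,0,0,0,0] hM
    ![(hζ'.isUnit (by norm_num)).unit,
      (hζ'.geom_sum_isUnit (by norm_num) (by norm_num : Nat.Coprime 2 11)).unit,
      (hζ'.geom_sum_isUnit (by norm_num) (by norm_num : Nat.Coprime 3 11)).unit,
      (hζ'.geom_sum_isUnit (by norm_num) (by norm_num : Nat.Coprime 4 11)).unit,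
      (hζ'.geom_sum_isUnit (by norm_num) (by norm_num : Nat.Coprime 5 11)).unit] ?_ u n hn
  intro j
  fin_cases j
  · simp only [Fin.zero_eta, Fin.isValue, Matrix.cons_val_zero, IsUnit.unit_spec]
    rw [fst_phi_zeta, snd_phi_zeta]
    simp [Fin.sum_univ_succ]
  · show TrivSqZeroExt.snd (phi 11 hζ _ (∑ k ∈ Finset.range 2, hζ.toInteger ^ k)) =
      TrivSqZeroExt.fst (phi 11 hζ _ (∑ k ∈ Finset.range 2, hζ.toInteger ^ k)) * _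
    rw [fst_phi_geom, snd_phi_geom]
    simp [Fin.sum_univ_succ, Finset.sum_range_succ]
    linear_combination ((-9)) * hx + ((-1) + (-1) * tx 11 + (-1) * tx 11 ^ 2 + (-2) * tx 11 ^ 3 + (-1) * tx 11 ^ 4 + (-1) * tx 11 ^ 5 + (-1) * tx 11 ^ 6 + (-1) * tx 11 ^ 7 + (-2) * tx 11 ^ 8) * hp
  · show TrivSqZeroExt.snd (phi 11 hζ _ (∑ k ∈ Finset.range 3, hζ.toInteger ^ k)) =
      TrivSqZeroExt.fst (phi 11 hζ _ (∑ k ∈ Finset.range 3, hζ.toInteger ^ k)) * _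
    rw [fst_phi_geom, snd_phi_geom]
    simp [Fin.sum_univ_succ, Finset.sum_range_succ]
    linear_combination ((-14) + (-3) * tx 11) * hx + ((-2) * tx 11 + (-4) * tx 11 ^ 2 + (-4) * tx 11 ^ 3 + (-2) * tx 11 ^ 4 + (-1) * tx 11 ^ 5 + (-3) * tx 11 ^ 6 + (-4) * tx 11 ^ 7 + (-3) * tx 11 ^ 8) * hp
  · show TrivSqZeroExt.snd (phi 11 hζ _ (∑ k ∈ Finset.range 4, hζ.toInteger ^ k)) =
      TrivSqZeroExt.fst (phi 11 hζ _ (∑ k ∈ Finset.range 4, hζ.toInteger ^ k)) * _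
    rw [fst_phi_geom, snd_phi_geom]
    simp [Fin.sum_univ_succ, Finset.sum_range_succ]
    linear_combination ((-26) + (-4) * tx 11) * hx + ((-2) + (-4) * tx 11 + (-7) * tx 11 ^ 2 + (-10) * tx 11 ^ 3 + (-10) * tx 11 ^ 4 + (-7) * tx 11 ^ 5 + (-7) * tx 11 ^ 6 + (-8) * tx 11 ^ 7 + (-6) * tx 11 ^ 8) * hp
  · show TrivSqZeroExt.snd (phi 11 hζ _ (∑ k ∈ Finset.range 5, hζ.toInteger ^ k)) =
      TrivSqZeroExt.fst (phi 11 hζ _ (∑ k ∈ Finset.range 5, hζ.toInteger ^ k)) * _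
    rw [fst_phi_geom, snd_phi_geom]
    simp [Fin.sum_univ_succ, Finset.sum_range_succ]
    linear_combination ((-6)) * hx + ((-5) * tx 11 ^ 2 + (-11) * tx 11 ^ 3 + (-13) * tx 11 ^ 4 + (-12) * tx 11 ^ 5 + (-10) * tx 11 ^ 6 + (-7) * tx 11 ^ 7 + (-3) * tx 11 ^ 8) * hp

end Fermat.Agent.Lib.Kummer
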