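import Fermat.Agent.Lib.Kummer.Defs
import Fermat.Agent.Lib.Kummer.KummerCert

set_option autoImplicit false

open NumberField Polynomial

namespace Fermat.Agent.Lib.Kummer

theorem kummerLemma_thirteen : KummerLemma 13 := by
  have hM : (Matrix.of fun j d => (((![![1,0,0,0,0,0,0,0,0,0,0],![7,10,8,9,2,12,7,3,5,4,11],![1,5,4,3,0,12,1,8,9,10,0],![8,11,1,9,12,2,12,3,9,0,0],![2,2,12,5,6,2,0,2,11,10,8],![9,4,11,11,4,10,7,0,0,0,0]] : Fin 6 → Fin 11 → ℕ) j d : ℕ) : ZMod 13)) *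
      (!![1,0,0,0,0,0;10,7,6,8,12,9;0,0,0,0,0,0;9,6,1,4,7,5;0,0,0,0,0,0;6,1,3,8,7,4;0,0,0,0,0,0;12,12,12,10,4,10;0,0,0,0,0,0;4,6,7,11,5,2;0,0,0,0,0,0] : Matrix (Fin 11) (Fin 6) (ZMod 13)) = 1 := by decide +kernel
  have : Fact (Nat.Prime 13) := ⟨by norm_num⟩
  have : IsCyclotomicExtension {13} ℚ (CyclotomicField 13 ℚ) := CyclotomicField.isCyclotomicExtension 13 ℚ
  rintro u ⟨n, hn⟩
  have hζ := IsCyclotomicExtension.zeta_spec 13 ℚ (CyclotomicField 13 ℚ)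
  have hζ' := hζ.toInteger_isPrimitiveRoot
  have hx : tx 13 ^ 11 = 0 := tx_pow 13
  have hp : (13 : TB 13) = 0 := by exact_mod_cast natCast_TB 13
  refine kummer_of_certificate' 13 hζ (by norm_num) 6 11 (by norm_num) (by norm_num)
    ![![1,0,0,0,0,0,0,0,0,0,0],![7,10,8,9,2,12,7,3,5,4,11],![1,5,4,3,0,12,1,8,9,10,0],![8,11,1,9,12,2,12,3,9,0,0],![2,2,12,5,6,2,0,2,11,10,8],![9,4,11,11,4,10,7,0,0,0,0]]
    !![1,0,0,0,0,0;10,7,6,8,12,9;0,0,0,0,0,0;9,6,1,4,7,5;0,0,0,0,0,0;6,1,3,8,7,4;0,0,0,0,0,0;12,12,12,10,4,10;0,0,0,0,0,0;4,6,7,11,5,2;0,0,0,0,0,0] hM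
    ![(hζ'.isUnit (by norm_num)).unit,
      (hζ'.geom_sum_isUnit (by norm_num) (by norm_num : Nat.Coprime 2 13)).unit,
      (hζ'.geom_sum_isUnit (by norm_num) (by norm_num : Nat.Coprime 3 13)).unit,
      (hζ'.geom_sum_isUnit (by norm_num) (by norm_num : Nat.Coprime 4 13)).unit,
      (hζ'.geom_sum_isUnit (by norm_num) (by norm_num : Nat.Coprime 5 13)).unit,
      (hζ'.geom_sum_isUnit (by norm_num) (by norm_num : Nat.Coprime 6 13)).unit] ?_ u n hn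
  intro j
  fin_cases j
  · simp only [Fin.zero_eta, Fin.isValue, Matrix.cons_val_zero, IsUnit.unit_spec]
    rw [fst_phi_zeta, snd_phi_zeta]
    simp [Fin.sum_univ_succ]
  · show TrivSqZeroExt.snd (phi 13 hζ _ (∑ k ∈ Finset.range 2, hζ.toInteger ^ k)) =
      TrivSqZeroExt.fst (phi 13 hζ _ (∑ k ∈ Finset.range 2, hζ.toInteger ^ k)) * _
    rw [fst_phi_geom, snd_phi_geom]
    simp [Fin.sum_univ_succ, Finset.sum_range_succ]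
    linear_combination ((-11)) * hx + ((-1) + (-2) * tx 13 + (-2) * tx 13 ^ 2 + (-2) * tx 13 ^ 3 + (-1) * tx 13 ^ 4 + (-2) * tx 13 ^ 5 + (-2) * tx 13 ^ 6 + (-1) * tx 13 ^ 7 + (-1) * tx 13 ^ 8 + (-1) * tx 13 ^ 9 + (-2) * tx 13 ^ 10) * hp
  · show TrivSqZeroExt.snd (phi 13 hζ _ (∑ k ∈ Finset.range 3, hζ.toInteger ^ k)) =
      TrivSqZeroExt.fst (phi 13 hζ _ (∑ k ∈ Finset.range 3, hζ.toInteger ^ k)) * _
    rw [fst_phi_geom, snd_phi_geom]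
    simp [Fin.sum_univ_succ, Finset.sum_range_succ]
    linear_combination ((-10)) * hx + ((-1) * tx 13 + (-2) * tx 13 ^ 2 + (-2) * tx 13 ^ 3 + (-1) * tx 13 ^ 4 + (-3) * tx 13 ^ 5 + (-3) * tx 13 ^ 6 + (-3) * tx 13 ^ 7 + (-4) * tx 13 ^ 8 + (-5) * tx 13 ^ 9 + (-3) * tx 13 ^ 10) * hp
  · show TrivSqZeroExt.snd (phi 13 hζ _ (∑ k ∈ Finset.range 4, hζ.toInteger ^ k)) =
      TrivSqZeroExt.fst (phi 13 hζ _ (∑ k ∈ Finset.range 4, hζ.toInteger ^ k)) * _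
    rw [fst_phi_geom, snd_phi_geom]
    simp [Fin.sum_univ_succ, Finset.sum_range_succ]
    linear_combination ((-9)) * hx + ((-2) + (-6) * tx 13 + (-7) * tx 13 ^ 2 + (-7) * tx 13 ^ 3 + (-9) * tx 13 ^ 4 + (-9) * tx 13 ^ 5 + (-9) * tx 13 ^ 6 + (-8) * tx 13 ^ 7 + (-8) * tx 13 ^ 8 + (-6) * tx 13 ^ 9 + (-3) * tx 13 ^ 10) * hp
  · show TrivSqZeroExt.snd (phi 13 hζ _ (∑ k ∈ Finset.range 5, hζ.toInteger ^ k)) =
      TrivSqZeroExt.fst (phi 13 hζ _ (∑ k ∈ Finset.range 5, hζ.toInteger ^ k)) * _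
    rw [fst_phi_geom, snd_phi_geom]
    simp [Fin.sum_univ_succ, Finset.sum_range_succ]
    linear_combination ((-237) + (-141) * tx 13 + (-50) * tx 13 ^ 2 + (-8) * tx 13 ^ 3) * hx + ((-5) * tx 13 ^ 2 + (-12) * tx 13 ^ 3 + (-16) * tx 13 ^ 4 + (-14) * tx 13 ^ 5 + (-9) * tx 13 ^ 6 + (-5) * tx 13 ^ 7 + (-7) * tx 13 ^ 8 + (-14) * tx 13 ^ 9 + (-20) * tx 13 ^ 10) * hp
  · show TrivSqZeroExt.snd (phi 13 hζ _ (∑ k ∈ Finset.range 6, hζ.toInteger ^ k)) =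
      TrivSqZeroExt.fst (phi 13 hζ _ (∑ k ∈ Finset.range 6, hζ.toInteger ^ k)) * _
    rw [fst_phi_geom, snd_phi_geom]
    simp [Fin.sum_univ_succ, Finset.sum_range_succ]
    linear_combination ((-7)) * hx + ((-3) + (-8) * tx 13 + (-17) * tx 13 ^ 2 + (-29) * tx 13 ^ 3 + (-38) * tx 13 ^ 4 + (-41) * tx 13 ^ 5 + (-39) * tx 13 ^ 6 + (-34) * tx 13 ^ 7 + (-25) * tx 13 ^ 8 + (-13) * tx 13 ^ 9 + (-4) * tx 13 ^ 10) * hp

end Fermat.Agent.Lib.Kummer
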