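import Fermat.Agent.Lib.Kummer.Defs
import Fermat.Agent.Lib.Kummer.KummerCert

set_option autoImplicit false

open NumberField Polynomial

namespace Fermat.Agent.Lib.Kummer

theorem kummerLemma_five : KummerLemma 5 := by
  have hM : (Matrix.of fun j d => (((![![1,0,0],![3,4,3]] : Fin 2 → Fin 3 → ℕ) j d : ℕ) : ZMod 5)) *
      (!![1,0;3,4;0,0] : Matrix (Fin 3) (Fin 2) (ZMod 5)) = 1 := by decide +kernel
  have : Fact (Nat.Prime 5) := ⟨by norm_num⟩
  have : IsCyclotomicExtension {5} ℚ (CyclotomicField 5 ℚ) := CyclotomicField.isCyclotomicExtension 5 ℚ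
  rintro u ⟨n, hn⟩
  have hζ := IsCyclotomicExtension.zeta_spec 5 ℚ (CyclotomicField 5 ℚ)
  have hζ' := hζ.toInteger_isPrimitiveRoot
  have hx : tx 5 ^ 3 = 0 := tx_pow 5
  have hp : (5 : TB 5) = 0 := by exact_mod_cast natCast_TB 5
  refine kummer_of_certificate' 5 hζ (by norm_num) 2 3 (by norm_num) (by norm_num)
    ![![1,0,0],![3,4,3]]
    !![1,0;3,4;0,0] hM
    ![(hζ'.isUnit (by norm_num)).unit,
      (hζ'.geom_sum_isUnit (by norm_num) (by norm_num : Nat.Coprime 2 5)).unit] ?_ u n hn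
  intro j
  fin_cases j
  · simp only [Fin.zero_eta, Fin.isValue, Matrix.cons_val_zero, IsUnit.unit_spec]
    rw [fst_phi_zeta, snd_phi_zeta]
    simp [Fin.sum_univ_succ]
  · show TrivSqZeroExt.snd (phi 5 hζ _ (∑ k ∈ Finset.range 2, hζ.toInteger ^ k)) =
      TrivSqZeroExt.fst (phi 5 hζ _ (∑ k ∈ Finset.range 2, hζ.toInteger ^ k)) * _
    rw [fst_phi_geom, snd_phi_geom]
    simp [Fin.sum_univ_succ, Finset.sum_range_succ]
    linear_combination ((-3)) * hx + ((-1) + (-2) * tx 5 + (-2) * tx 5 ^ 2) * hp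

end Fermat.Agent.Lib.Kummer
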