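import Fermat.Agent.Lib.Kummer.Defs
import Fermat.Agent.Lib.Kummer.KummerCert

set_option autoImplicit false

open NumberField Polynomial

namespace Fermat.Agent.Lib.Kummer

theorem kummerLemma_seven : KummerLemma 7 := by
  have hM : (Matrix.of fun j d => (((![![1,0,0,0,0],![4,2,6,4,5],![1,3,2,4,0]] : Fin 3 → Fin 5 → ℕ) j d : ℕ) : ZMod 7)) *
      (!![1,0,0;3,6,1;0,0,0;1,6,3;0,0,0] : Matrix (Fin 5) (Fin 3) (ZMod 7)) = 1 := by decide +kernel
  have : Fact (Nat.Prime 7) := ⟨by norm_num⟩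
  have : IsCyclotomicExtension {7} ℚ (CyclotomicField 7 ℚ) := CyclotomicField.isCyclotomicExtension 7 ℚ
  rintro u ⟨n, hn⟩
  have hζ := IsCyclotomicExtension.zeta_spec 7 ℚ (CyclotomicField 7 ℚ)
  have hζ' := hζ.toInteger_isPrimitiveRoot
  have hx : tx 7 ^ 5 = 0 := tx_pow 7
  have hp : (7 : TB 7) = 0 := by exact_mod_cast natCast_TB 7
  refine kummer_of_certificate' 7 hζ (by norm_num) 3 5 (by norm_num) (by norm_num)
    ![![1,0,0,0,0],![4,2,6,4,5],![1,3,2,4,0]]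
    !![1,0,0;3,6,1;0,0,0;1,6,3;0,0,0] hM
    ![(hζ'.isUnit (by norm_num)).unit,
      (hζ'.geom_sum_isUnit (by norm_num) (by norm_num : Nat.Coprime 2 7)).unit,
      (hζ'.geom_sum_isUnit (by norm_num) (by norm_num : Nat.Coprime 3 7)).unit] ?_ u n hn
  intro j
  fin_cases j
  · simp only [Fin.zero_eta, Fin.isValue, Matrix.cons_val_zero, IsUnit.unit_spec]
    rw [fst_phi_zeta, snd_phi_zeta]
    simp [Fin.sum_univ_succ]
  · show TrivSqZeroExt.snd (phi 7 hζ _ (∑ k ∈ Finset.range 2, hζ.toInteger ^ k)) =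
      TrivSqZeroExt.fst (phi 7 hζ _ (∑ k ∈ Finset.range 2, hζ.toInteger ^ k)) * _
    rw [fst_phi_geom, snd_phi_geom]
    simp [Fin.sum_univ_succ, Finset.sum_range_succ]
    linear_combination ((-5)) * hx + ((-1) + (-1) * tx 7 + (-2) * tx 7 ^ 2 + (-2) * tx 7 ^ 3 + (-2) * tx 7 ^ 4) * hp
  · show TrivSqZeroExt.snd (phi 7 hζ _ (∑ k ∈ Finset.range 3, hζ.toInteger ^ k)) =
      TrivSqZeroExt.fst (phi 7 hζ _ (∑ k ∈ Finset.range 3, hζ.toInteger ^ k)) * _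
    rw [fst_phi_geom, snd_phi_geom]
    simp [Fin.sum_univ_succ, Finset.sum_range_succ]
    linear_combination ((-4)) * hx + ((-1) * tx 7 + (-2) * tx 7 ^ 2 + (-3) * tx 7 ^ 3 + (-2) * tx 7 ^ 4) * hp

end Fermat.Agent.Lib.Kummer
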