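import Mathlib

set_option autoImplicit false

open NumberField Polynomial

namespace Fermat.Agent.Lib.Kummer

section Abstract

variable (p : ℕ) [hp : Fact p.Prime]

/-- Abstract counting lemma: a commutative group generated by `n` elements, with a homomorphism to
an `𝔽_p`-vector space whose image contains `n` independent vectors: the kernel consists of `p`-th
powers. -/
theorem exists_pow_eq_of_dl {G : Type*} [CommGroup G] {V : Type*} [AddCommGroup V]
    [Module (ZMod p) V] (n : ℕ) (g : Fin n → G)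
    (hg : ∀ x : G, ∃ e : Fin n → ℤ, x = ∏ i, g i ^ e i)
    (dl : G →* Multiplicative V) (η : Fin n → G)
    (hη : LinearIndependent (ZMod p) (fun i => (dl (η i)).toAdd))
    (u : G) (hu : dl u = 1) : ∃ v, u = v ^ p := by
  classical
  set T : (Fin n → ZMod p) →ₗ[ZMod p] V :=
    Fintype.linearCombination (ZMod p) (fun i => (dl (g i)).toAdd) with hT
  have key : ∀ e : Fin n → ℤ, (dl (∏ i, g i ^ e i)).toAdd = T (fun i => (e i : ZMod p)) := by
    intro e
    rw [map_prod, hT, Fintype.linearCombination_apply, toAdd_prod]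
    refine Finset.sum_congr rfl fun i _ => ?_
    rw [map_zpow, toAdd_zpow, Int.cast_smul_eq_zsmul]
  choose y hy using fun i => hg (η i)
  have hlin : LinearIndependent (ZMod p) (fun i => (fun j => ((y i j : ℤ) : ZMod p))) := by
    apply LinearIndependent.of_comp T
    have : (T ∘ fun i => (fun j => ((y i j : ℤ) : ZMod p))) = fun i => (dl (η i)).toAdd := by
      funext i
      rw [Function.comp, ← key, ← hy]
    rw [this]
    exact hη
  have hspan := hlin.span_eq_top_of_card_eq_finrank' (by simp)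
  have hinj : Function.Injective T := by
    let b := Module.Basis.mk hlin hspan.ge
    rw [← LinearMap.ker_eq_bot, LinearMap.ker_eq_bot']
    intro x hx
    have hx' := b.sum_repr x
    rw [← hx'] at hx
    rw [map_sum] at hx
    have h2 : ∑ i, (b.repr x i) • (dl (η i)).toAdd = 0 := by
      rw [← hx]
      refine Finset.sum_congr rfl fun i _ => ?_
      rw [map_smul, Module.Basis.mk_apply, ← key, ← hy]
    have h3 := (Fintype.linearIndependent_iff.mp hη) _ h2
    rw [← hx']
    exact Finset.sum_eq_zero fun i _ => by rw [h3 i, zero_smul]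
  obtain ⟨e, he⟩ := hg u
  have h0 : T (fun i => (e i : ZMod p)) = 0 := by
    rw [← key, ← he, hu]; rfl
  have h1 : (fun i => (e i : ZMod p)) = 0 := hinj (by rw [h0, map_zero])
  have h2 : ∀ i, (p : ℤ) ∣ e i := fun i =>
    (ZMod.intCast_zmod_eq_zero_iff_dvd (e i) p).mp (congrFun h1 i)
  choose f hf using h2
  refine ⟨∏ i, g i ^ f i, ?_⟩
  rw [he, ← Finset.prod_pow]
  refine Finset.prod_congr rfl fun i _ => ?_
  rw [hf i, ← zpow_natCast, ← zpow_mul, mul_comm]

end Abstract

theorem units_generated (K : Type*) [Field K] [NumberField K] :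
    ∃ g : Fin (Units.rank K + 1) → (𝓞 K)ˣ,
      ∀ x, ∃ e : Fin (Units.rank K + 1) → ℤ, x = ∏ i, g i ^ e i := by
  obtain ⟨t, ht⟩ := IsCyclic.exists_generator (α := Units.torsion K)
  refine ⟨Fin.cons (t : (𝓞 K)ˣ) (Units.fundSystem K), fun x => ?_⟩
  obtain ⟨⟨τ, e'⟩, h, -⟩ := Units.exist_unique_eq_mul_prod K x
  obtain ⟨k, hk⟩ := Subgroup.mem_zpowers_iff.mp (ht τ)
  refine ⟨Fin.cons k e', ?_⟩
  rw [Fin.prod_univ_succ]
  simp only [Fin.cons_zero, Fin.cons_succ]
  rw [h]
  simp only
  rw [← hk]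
  simp

theorem rank_cyclotomic (p : ℕ) [hp : Fact p.Prime] (hp2 : p ≠ 2) (K : Type*) [Field K] [NumberField K]
    [IsCyclotomicExtension {p} ℚ K] : Units.rank K + 1 = (p - 1) / 2 := by
  have h3 : 2 < p := lt_of_le_of_ne hp.out.two_le (Ne.symm hp2)
  have h1 := IsCyclotomicExtension.Rat.nrRealPlaces_eq_zero (n := p) K h3
  have h2 := IsCyclotomicExtension.Rat.nrComplexPlaces_eq_totient_div_two p K
  rw [Nat.totient_prime hp.out] at h2
  have h4 := InfinitePlace.card_eq_nrRealPlaces_add_nrComplexPlaces K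
  rw [Units.rank, h4, h1, h2]
  have : 1 ≤ (p - 1) / 2 := by omega
  omega

theorem linearIndependent_of_rightInverse {F V : Type*} [Field F] [AddCommGroup V] [Module F V]
    {m n : ℕ} (b : Fin n → V) (hb : LinearIndependent F b)
    (M : Matrix (Fin m) (Fin n) F) (M' : Matrix (Fin n) (Fin m) F) (hM : M * M' = 1) :
    LinearIndependent F (fun j => ∑ d, M j d • b d) := by
  rw [Fintype.linearIndependent_iff]
  intro c hc
  have h1 : ∑ d, (∑ j, c j * M j d) • b d = 0 := by
    rw [← hc]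
    simp_rw [Finset.sum_smul, Finset.smul_sum, smul_smul]
    rw [Finset.sum_comm]
  have h2 := (Fintype.linearIndependent_iff.mp hb) _ h1
  have h3 : Matrix.vecMul c M = 0 := by
    funext d
    simpa [Matrix.vecMul, dotProduct] using h2 d
  have h4 : Matrix.vecMul c (M * M') = 0 := by
    rw [← Matrix.vecMul_vecMul, h3, Matrix.zero_vecMul]
  rw [hM, Matrix.vecMul_one] at h4
  exact fun i => congrFun h4 i

section DL

/-- logarithmic derivative on the units of the dual numbers. -/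
noncomputable def dualDlog (B : Type*) [CommRing B] : (DualNumber B)ˣ →* Multiplicative B where
  toFun u := Multiplicative.ofAdd (TrivSqZeroExt.snd (u : DualNumber B) *
    TrivSqZeroExt.fst ((u⁻¹ : (DualNumber B)ˣ) : DualNumber B))
  map_one' := by simp
  map_mul' u v := by
    rw [← ofAdd_add]
    congr 1
    have hu : TrivSqZeroExt.fst (u : DualNumber B) *
        TrivSqZeroExt.fst ((u⁻¹ : (DualNumber B)ˣ) : DualNumber B) = 1 := by
      rw [← TrivSqZeroExt.fst_mul, Units.mul_inv, TrivSqZeroExt.fst_one]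
    have hv : TrivSqZeroExt.fst (v : DualNumber B) *
        TrivSqZeroExt.fst ((v⁻¹ : (DualNumber B)ˣ) : DualNumber B) = 1 := by
      rw [← TrivSqZeroExt.fst_mul, Units.mul_inv, TrivSqZeroExt.fst_one]
    have huv : (u * v)⁻¹ = u⁻¹ * v⁻¹ := mul_inv u v
    rw [huv, Units.val_mul, Units.val_mul, TrivSqZeroExt.fst_mul, TrivSqZeroExt.snd_mul]
    simp only [smul_eq_mul, MulOpposite.smul_eq_mul_unop, MulOpposite.unop_op]
    linear_combination (TrivSqZeroExt.snd (v : DualNumber B) *
        TrivSqZeroExt.fst ((v⁻¹ : (DualNumber B)ˣ) : DualNumber B)) * hu +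
      (TrivSqZeroExt.snd (u : DualNumber B) *
        TrivSqZeroExt.fst ((u⁻¹ : (DualNumber B)ˣ) : DualNumber B)) * hv

theorem dualDlog_eq_of_mul {B : Type*} [CommRing B] (u : (DualNumber B)ˣ) (d : B)
    (h : TrivSqZeroExt.snd (u : DualNumber B) = TrivSqZeroExt.fst (u : DualNumber B) * d) :
    (dualDlog B u).toAdd = d := by
  have hu : TrivSqZeroExt.fst (u : DualNumber B) *
      TrivSqZeroExt.fst ((u⁻¹ : (DualNumber B)ˣ) : DualNumber B) = 1 := by
    rw [← TrivSqZeroExt.fst_mul, Units.mul_inv, TrivSqZeroExt.fst_one]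
  show TrivSqZeroExt.snd (u : DualNumber B) *
    TrivSqZeroExt.fst ((u⁻¹ : (DualNumber B)ˣ) : DualNumber B) = d
  rw [h]
  linear_combination d * hu

end DL

section Phi

variable (p : ℕ) [hp : Fact p.Prime]

/-- the truncated polynomial ring `𝔽_p[x]/(x^(p-2))`. -/
abbrev TB : Type := AdjoinRoot ((X : (ZMod p)[X]) ^ (p - 2))

/-- the class of `x`. -/
noncomputable def tx : TB p := AdjoinRoot.root _

theorem tx_pow : tx p ^ (p - 2) = 0 := by
  have := AdjoinRoot.eval₂_root ((X : (ZMod p)[X]) ^ (p - 2))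
  simpa [tx] using this

theorem natCast_TB : (p : TB p) = 0 := by
  have : (p : TB p) = algebraMap (ZMod p) (TB p) (p : ZMod p) :=
    (map_natCast (algebraMap (ZMod p) (TB p)) p).symm
  rw [this, ZMod.natCast_self, map_zero]

theorem linearIndependent_tx : LinearIndependent (ZMod p) (fun d : Fin (p - 2) => tx p ^ (d : ℕ)) := by
  let pb := AdjoinRoot.powerBasis' (monic_X_pow (R := ZMod p) (p - 2))
  have hdim : pb.dim = p - 2 := by simp [pb]
  have := pb.basis.linearIndependent.comp (Fin.cast hdim.symm) (Fin.cast_injective _)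
  have h2 : (fun d : Fin (p - 2) => tx p ^ (d : ℕ)) = pb.basis ∘ Fin.cast hdim.symm := by
    ext d
    simp [pb, tx]
  rw [h2]
  exact this


/-- the image of `ζ` in the dual numbers. -/
noncomputable def ty : DualNumber (TB p) := TrivSqZeroExt.inl (1 + tx p) + TrivSqZeroExt.inr (1 + tx p)

theorem natCast_dual : (p : DualNumber (TB p)) = 0 := by
  have : (p : DualNumber (TB p)) = algebraMap (ZMod p) (DualNumber (TB p)) (p : ZMod p) :=
    (map_natCast (algebraMap (ZMod p) (DualNumber (TB p))) p).symm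
  rw [this, ZMod.natCast_self, map_zero]

theorem aeval_ty (hp2 : p ≠ 2) : aeval (ty p) (cyclotomic p ℤ) = 0 := by
  have h3 : 2 < p := lt_of_le_of_ne hp.out.two_le (Ne.symm hp2)
  have h1 : aeval (ty p) (cyclotomic p ℤ) = aeval (ty p) (cyclotomic p (ZMod p)) := by
    have h0 : Int.castRingHom (ZMod p) = algebraMap ℤ (ZMod p) := rfl
    rw [← map_cyclotomic_int p (ZMod p), h0, aeval_map_algebraMap]
  have h2 : cyclotomic p (ZMod p) = (X - 1) ^ (p - 1) := by
    have := cyclotomic_mul_prime_eq_pow_of_not_dvd (ZMod p) (p := p) (n := 1)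
      (fun h => hp.out.one_lt.ne' (Nat.dvd_one.mp h))
    rwa [one_mul, cyclotomic_one] at this
  rw [h1, h2]
  simp only [map_pow, map_sub, aeval_X, map_one]
  apply TrivSqZeroExt.ext
  · rw [TrivSqZeroExt.fst_pow]
    simp only [ty, TrivSqZeroExt.fst_sub, TrivSqZeroExt.fst_add, TrivSqZeroExt.fst_inl,
      TrivSqZeroExt.fst_inr, TrivSqZeroExt.fst_one, TrivSqZeroExt.fst_zero, add_zero,
      add_sub_cancel_left]
    have : p - 1 = (p - 2) + 1 := by omega
    rw [this, pow_succ, tx_pow, zero_mul]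
  · rw [TrivSqZeroExt.snd_pow]
    simp only [ty, TrivSqZeroExt.fst_sub, TrivSqZeroExt.fst_add, TrivSqZeroExt.fst_inl,
      TrivSqZeroExt.fst_inr, TrivSqZeroExt.fst_one, TrivSqZeroExt.snd_zero, add_zero,
      add_sub_cancel_left]
    have : (p - 1).pred = p - 2 := by rw [Nat.pred_eq_sub_one]; omega
    rw [this, tx_pow, zero_smul, smul_zero]

variable {K : Type*} [Field K] [NumberField K] [IsCyclotomicExtension {p} ℚ K]
  {ζ : K} (hζ : IsPrimitiveRoot ζ p)

/-- the ring homomorphism `𝓞 K → 𝔽_p[x,ε]/(x^(p-2), ε^2)`, `ζ ↦ (1+x)(1+ε)`. -/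
noncomputable def phi (hp2 : p ≠ 2) : 𝓞 K →ₐ[ℤ] DualNumber (TB p) :=
  hζ.integralPowerBasis.lift (ty p) (by
    have h0 : minpoly ℤ hζ.toInteger = cyclotomic p ℤ := by
      rw [← RingOfIntegers.minpoly_coe, cyclotomic_eq_minpoly hζ hp.out.pos]; rfl
    rw [hζ.integralPowerBasis_gen, h0]
    exact aeval_ty p hp2)

theorem phi_zeta (hp2 : p ≠ 2) : phi p hζ hp2 hζ.toInteger = ty p := by
  conv_lhs => rw [← hζ.integralPowerBasis_gen]
  exact hζ.integralPowerBasis.lift_gen (ty p) _

end Phi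

section Main

variable (p : ℕ) [hp : Fact p.Prime]
variable {K : Type*} [Field K] [NumberField K] [IsCyclotomicExtension {p} ℚ K]
  {ζ : K} (hζ : IsPrimitiveRoot ζ p)

/-- the logarithmic derivative on units of `𝓞 K`. -/
noncomputable def dl (hp2 : p ≠ 2) : (𝓞 K)ˣ →* Multiplicative (TB p) :=
  (dualDlog (TB p)).comp (Units.map ((phi p hζ hp2 : 𝓞 K →+* DualNumber (TB p)) : 𝓞 K →* DualNumber (TB p)))

theorem dl_eq_one_of_dvd (hp2 : p ≠ 2) (u : (𝓞 K)ˣ) (n : ℤ)
    (hu : (p : 𝓞 K) ∣ (u : 𝓞 K) - n) : dl p hζ hp2 u = 1 := by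
  obtain ⟨w, hw⟩ := hu
  have h1 : (u : 𝓞 K) = n + p * w := by rw [← hw]; ring
  have h2 : phi p hζ hp2 (u : 𝓞 K) = (n : DualNumber (TB p)) := by
    rw [h1, map_add, map_mul, map_natCast, map_intCast, natCast_dual, zero_mul, add_zero]
  have h3 : (dl p hζ hp2 u).toAdd = 0 := by
    apply dualDlog_eq_of_mul
    show TrivSqZeroExt.snd (phi p hζ hp2 (u : 𝓞 K)) = TrivSqZeroExt.fst (phi p hζ hp2 (u : 𝓞 K)) * 0
    rw [h2, mul_zero]
    simp
  exact h3

/-- **Kummer's lemma from a certificate**: it suffices to exhibit `(p-1)/2` units whose logarithmic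
derivatives are given by the rows of a matrix admitting a right inverse. -/
theorem kummer_of_certificate (hp2 : p ≠ 2) (r m : ℕ) (hr : r = (p - 1) / 2) (hm : m = p - 2)
    (M : Matrix (Fin r) (Fin m) (ZMod p)) (M' : Matrix (Fin m) (Fin r) (ZMod p)) (hM : M * M' = 1)
    (η : Fin r → (𝓞 K)ˣ)
    (hη : ∀ j, TrivSqZeroExt.snd (phi p hζ hp2 (η j : 𝓞 K)) =
      TrivSqZeroExt.fst (phi p hζ hp2 (η j : 𝓞 K)) * ∑ d, M j d • tx p ^ (d : ℕ))
    (u : (𝓞 K)ˣ) (n : ℤ) (hu : (p : 𝓞 K) ∣ (u : 𝓞 K) - n) : ∃ v : (𝓞 K)ˣ, u = v ^ p := by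
  subst hm
  have hr' : Units.rank K + 1 = r := by rw [hr]; exact rank_cyclotomic p hp2 K
  subst hr'
  obtain ⟨g, hg⟩ := units_generated K
  refine exists_pow_eq_of_dl p _ g hg (dl p hζ hp2) η ?_ u (dl_eq_one_of_dvd p hζ hp2 u n hu)
  have h1 : (fun i => (dl p hζ hp2 (η i)).toAdd) = fun j => ∑ d, M j d • tx p ^ (d : ℕ) := by
    funext j
    exact dualDlog_eq_of_mul _ _ (hη j)
  rw [h1]
  exact linearIndependent_of_rightInverse _ (linearIndependent_tx p) M M' hM

end Main

end Fermat.Agent.Lib.Kummer
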