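import Mathlib

set_option autoImplicit false

namespace Fermat.Agent.Lib.Kummer

open NumberField Polynomial InfinitePlace Nat Real cyclotomic Module IsCyclotomicExtension.Rat

universe u

variable (K : Type u) [Field K] [NumberField K]

theorem minkowski_seven_lt [IsCyclotomicExtension {7} ℚ K] :
    (4 / π) ^ nrComplexPlaces K *
      ((finrank ℚ K)! / (finrank ℚ K) ^ (finrank ℚ K) * √|discr K|) < 5 := by
  have : Fact (Nat.Prime 7) := ⟨by norm_num⟩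
  rw [discr_prime 7 K, IsCyclotomicExtension.finrank (n := 7) K
    (irreducible_rat (by simp)), nrComplexPlaces_eq_totient_div_two 7,
    totient_prime (by norm_num)]
  have h1 : (4 / π) ^ ((7 - 1) / 2) ≤ (4 / 3.1415 : ℝ) ^ ((7 - 1) / 2) := by
    gcongr
    exact pi_gt_d4.le
  have h2 : √|(((-1 : ℤ) ^ ((7 - 1) / 2) * (7 : ℕ) ^ (7 - 2) : ℤ) : ℝ)| ≤ 130 := by
    rw [Real.sqrt_le_left (by norm_num)]
    norm_num
  calc (4 / π) ^ ((7 - 1) / 2) * (((7 - 1)! : ℕ) / ((7 - 1 : ℕ) : ℝ) ^ (7 - 1) *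
        √|(((-1 : ℤ) ^ ((7 - 1) / 2) * (7 : ℕ) ^ (7 - 2) : ℤ) : ℝ)|)
      ≤ (4 / 3.1415 : ℝ) ^ ((7 - 1) / 2) * (((7 - 1)! : ℕ) / ((7 - 1 : ℕ) : ℝ) ^ (7 - 1) * 130) := by
        gcongr
    _ < 5 := by
        norm_num [Nat.factorial]

theorem minkowski_eleven_lt [IsCyclotomicExtension {11} ℚ K] :
    (4 / π) ^ nrComplexPlaces K *
      ((finrank ℚ K)! / (finrank ℚ K) ^ (finrank ℚ K) * √|discr K|) < 59 := by
  have : Fact (Nat.Prime 11) := ⟨by norm_num⟩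
  rw [discr_prime 11 K, IsCyclotomicExtension.finrank (n := 11) K
    (irreducible_rat (by simp)), nrComplexPlaces_eq_totient_div_two 11,
    totient_prime (by norm_num)]
  have h1 : (4 / π) ^ ((11 - 1) / 2) ≤ (4 / 3.1415 : ℝ) ^ ((11 - 1) / 2) := by
    gcongr
    exact pi_gt_d4.le
  have h2 : √|(((-1 : ℤ) ^ ((11 - 1) / 2) * (11 : ℕ) ^ (11 - 2) : ℤ) : ℝ)| ≤ 48559 := by
    rw [Real.sqrt_le_left (by norm_num)]
    norm_num
  calc (4 / π) ^ ((11 - 1) / 2) * (((11 - 1)! : ℕ) / ((11 - 1 : ℕ) : ℝ) ^ (11 - 1) *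
        √|(((-1 : ℤ) ^ ((11 - 1) / 2) * (11 : ℕ) ^ (11 - 2) : ℤ) : ℝ)|)
      ≤ (4 / 3.1415 : ℝ) ^ ((11 - 1) / 2) *
          (((11 - 1)! : ℕ) / ((11 - 1 : ℕ) : ℝ) ^ (11 - 1) * 48559) := by
        gcongr
    _ < 59 := by
        norm_num [Nat.factorial]

theorem minkowski_thirteen_lt [IsCyclotomicExtension {13} ℚ K] :
    (4 / π) ^ nrComplexPlaces K *
      ((finrank ℚ K)! / (finrank ℚ K) ^ (finrank ℚ K) * √|discr K|) < 307 := by
  have : Fact (Nat.Prime 13) := ⟨by norm_num⟩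
  rw [discr_prime 13 K, IsCyclotomicExtension.finrank (n := 13) K
    (irreducible_rat (by simp)), nrComplexPlaces_eq_totient_div_two 13,
    totient_prime (by norm_num)]
  have h1 : (4 / π) ^ ((13 - 1) / 2) ≤ (4 / 3.1415 : ℝ) ^ ((13 - 1) / 2) := by
    gcongr
    exact pi_gt_d4.le
  have h2 : √|(((-1 : ℤ) ^ ((13 - 1) / 2) * (13 : ℕ) ^ (13 - 2) : ℤ) : ℝ)| ≤ 1338716 := by
    rw [Real.sqrt_le_left (by norm_num)]
    norm_num
  calc (4 / π) ^ ((13 - 1) / 2) * (((13 - 1)! : ℕ) / ((13 - 1 : ℕ) : ℝ) ^ (13 - 1) *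
        √|(((-1 : ℤ) ^ ((13 - 1) / 2) * (13 : ℕ) ^ (13 - 2) : ℤ) : ℝ)|)
      ≤ (4 / 3.1415 : ℝ) ^ ((13 - 1) / 2) *
          (((13 - 1)! : ℕ) / ((13 - 1 : ℕ) : ℝ) ^ (13 - 1) * 1338716) := by
        gcongr
    _ < 307 := by
        norm_num [Nat.factorial]

theorem minkowski_seven [IsCyclotomicExtension {7} ℚ K] :
    ⌊(4 / π) ^ nrComplexPlaces K *
      ((finrank ℚ K)! / (finrank ℚ K) ^ (finrank ℚ K) * √|discr K|)⌋₊ ≤ 4 :=
  Nat.lt_succ_iff.1 ((Nat.floor_lt (by positivity)).2 (by exact_mod_cast minkowski_seven_lt K))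

theorem minkowski_eleven [IsCyclotomicExtension {11} ℚ K] :
    ⌊(4 / π) ^ nrComplexPlaces K *
      ((finrank ℚ K)! / (finrank ℚ K) ^ (finrank ℚ K) * √|discr K|)⌋₊ ≤ 58 :=
  Nat.lt_succ_iff.1 ((Nat.floor_lt (by positivity)).2 (by exact_mod_cast minkowski_eleven_lt K))

theorem minkowski_thirteen [IsCyclotomicExtension {13} ℚ K] :
    ⌊(4 / π) ^ nrComplexPlaces K *
      ((finrank ℚ K)! / (finrank ℚ K) ^ (finrank ℚ K) * √|discr K|)⌋₊ ≤ 306 :=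
  Nat.lt_succ_iff.1 ((Nat.floor_lt (by positivity)).2 (by exact_mod_cast minkowski_thirteen_lt K))

end Fermat.Agent.Lib.Kummer
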