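import Mathlib

set_option autoImplicit false

open NumberField Polynomial Ideal Module InfinitePlace Nat Real

namespace Fermat.Agent.Lib.Kummer

variable {p : ℕ} [NeZero p] {K : Type*} [Field K] [NumberField K] [IsCyclotomicExtension {p} ℚ K]
  {ζ : K}

/-- Certificate producing a principal prime ideal above the rational prime `q` in `ℤ[ζ_p]`. -/
theorem exists_isPrincipal_mem_primesOver (hζ : IsPrimitiveRoot ζ p) (q : ℕ) [Fact q.Prime]
    (g h r : ℤ[X]) (hg : g.Monic)
    (hirr : Irreducible (g.map (Int.castRingHom (ZMod q))))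
    (hcyc : cyclotomic p ℤ = g * h + (q : ℤ[X]) * r)
    (α β γ μ ν : 𝓞 K) (h1 : α * β = (q : 𝓞 K)) (h2 : α * γ = aeval hζ.toInteger g)
    (h3 : α = (q : 𝓞 K) * μ + aeval hζ.toInteger g * ν) :
    ∃ P ∈ primesOver (span {(q : ℤ)}) (𝓞 K), Submodule.IsPrincipal P := by
  classical
  set gb : (ZMod q)[X] := g.map (Int.castRingHom (ZMod q)) with hgb
  have : Fact (Irreducible gb) := ⟨hirr⟩
  have hgbm : gb.Monic := hg.map _
  have hmin : minpoly ℤ hζ.integralPowerBasis.gen = cyclotomic p ℤ := by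
    rw [hζ.integralPowerBasis_gen, cyclotomic_eq_minpoly hζ (NeZero.pos p),
      ← RingOfIntegers.minpoly_coe]
    rfl
  have haev : ∀ f : ℤ[X], aeval (AdjoinRoot.root gb) f
      = AdjoinRoot.mk gb (f.map (Int.castRingHom (ZMod q))) := by
    intro f
    rw [← AdjoinRoot.aeval_eq]
    exact (aeval_map_algebraMap (A := ZMod q) (AdjoinRoot.root gb) f).symm
  have hq0 : (q : (ZMod q)[X]) = 0 := CharP.cast_eq_zero _ q
  have hroot : aeval (AdjoinRoot.root gb) (minpoly ℤ hζ.integralPowerBasis.gen) = 0 := by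
    rw [hmin, haev, hcyc, AdjoinRoot.mk_eq_zero]
    rw [Polynomial.map_add, Polynomial.map_mul, Polynomial.map_mul, Polynomial.map_natCast, hq0,
      zero_mul, add_zero]
    exact dvd_mul_right _ _
  let ev : 𝓞 K →ₐ[ℤ] AdjoinRoot gb := hζ.integralPowerBasis.lift (AdjoinRoot.root gb) hroot
  have hev : ∀ f : ℤ[X],
      ev (aeval hζ.toInteger f) = AdjoinRoot.mk gb (f.map (Int.castRingHom (ZMod q))) := by
    intro f
    rw [← haev, ← hζ.integralPowerBasis_gen]
    exact hζ.integralPowerBasis.lift_aeval _ hroot f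
  have hevg : ev (aeval hζ.toInteger g) = 0 := by
    rw [hev, AdjoinRoot.mk_eq_zero]
  have hevq : ev (q : 𝓞 K) = 0 := by
    rw [map_natCast]
    have h0 : AdjoinRoot.mk gb (q : (ZMod q)[X]) = 0 := by rw [hq0, map_zero]
    rwa [map_natCast] at h0
  have hker : RingHom.ker (ev : 𝓞 K →+* AdjoinRoot gb) = span {α} := by
    apply le_antisymm
    · intro x hx
      rw [RingHom.mem_ker] at hx
      obtain ⟨f, rfl⟩ := hζ.integralPowerBasis.exists_eq_aeval' x
      rw [hζ.integralPowerBasis_gen] at hx ⊢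
      have hx' : ev (aeval hζ.toInteger f) = 0 := hx
      rw [hev, AdjoinRoot.mk_eq_zero] at hx'
      have hmod : (f %ₘ g).map (Int.castRingHom (ZMod q)) = 0 := by
        rw [Polynomial.map_modByMonic _ hg]
        exact (modByMonic_eq_zero_iff_dvd hgbm).2 hx'
      have hC : C (q : ℤ) ∣ f %ₘ g := by
        rw [C_dvd_iff_dvd_coeff]
        intro i
        have := congrArg (fun P => P.coeff i) hmod
        simp only [coeff_map, eq_intCast, coeff_zero] at this
        exact (ZMod.intCast_zmod_eq_zero_iff_dvd _ _).1 this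
      obtain ⟨t, ht⟩ := hC
      have hf : f = C (q : ℤ) * t + g * (f /ₘ g) := by
        rw [← ht]; exact (modByMonic_add_div f g).symm
      rw [hf, mem_span_singleton, map_add, map_mul, map_mul, aeval_C, ← h2]
      have hq' : algebraMap ℤ (𝓞 K) (q : ℤ) = α * β := by rw [h1]; simp
      rw [hq']
      exact ⟨β * aeval hζ.toInteger t + γ * aeval hζ.toInteger (f /ₘ g), by ring⟩
    · rw [span_singleton_le_iff_mem, RingHom.mem_ker]
      show ev α = 0
      rw [h3, map_add, map_mul, map_mul, hevg, hevq, zero_mul, zero_mul, add_zero]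
  have hprime : (span {α} : Ideal (𝓞 K)).IsPrime := by
    rw [← hker]; exact RingHom.ker_isPrime _
  refine ⟨span {α}, ⟨hprime, ⟨?_⟩⟩, ⟨α, rfl⟩⟩
  have hmax : (span {(q : ℤ)} : Ideal ℤ).IsMaximal :=
    (Int.prime_iff_natAbs_prime.2 (by simpa using (Fact.out : q.Prime))).isMaximal_span_singleton
  refine hmax.eq_of_le (hprime.under ℤ).ne_top ?_
  rw [span_singleton_le_iff_mem, Ideal.mem_comap, mem_span_singleton]
  exact ⟨β, by simp [h1]⟩

theorem isPrincipalIdealRing_of_bound {p : ℕ} [Fact p.Prime] (K : Type*) [Field K] [NumberField K]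
    [IsCyclotomicExtension {p} ℚ K] (B : ℕ)
    (hB : ⌊(4 / π) ^ nrComplexPlaces K *
      ((finrank ℚ K)! / (finrank ℚ K) ^ (finrank ℚ K) * √|discr K|)⌋₊ ≤ B)
    (h : ∀ q ∈ Finset.Icc 1 B, q.Prime → q ≠ p →
      (∀ k, 0 < k → q ^ k ≤ B → q ^ k % p ≠ 1) ∨
        ∃ P ∈ primesOver (span {(q : ℤ)}) (𝓞 K), Submodule.IsPrincipal P) :
    IsPrincipalIdealRing (𝓞 K) := by
  have hp : p.Prime := Fact.out
  have : IsGalois ℚ K := IsCyclotomicExtension.isGalois {p} ℚ K
  refine RingOfIntegers.isPrincipalIdealRing_of_isPrincipal_of_lt_or_isPrincipal_of_mem_primesOver_of_mem_Icc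
    (fun q hq hqp => ?_)
  rw [Finset.mem_Icc] at hq
  by_cases hqp' : q = p
  · subst hqp'
    have hζ := IsCyclotomicExtension.zeta_spec q ℚ K
    refine ⟨span {hζ.toInteger - 1}, ⟨inferInstance, ?_⟩, Or.inr ⟨_, rfl⟩⟩
    have hK' : IsCyclotomicExtension {q ^ (0 + 1)} ℚ K := by simp; infer_instance
    have hζ' : IsPrimitiveRoot (IsCyclotomicExtension.zeta q ℚ K) (q ^ (0 + 1)) := by simpa using hζ
    exact IsCyclotomicExtension.Rat.liesOver_span_zeta_sub_one q 0 hζ'
  · rcases h q (Finset.mem_Icc.2 ⟨hq.1, hq.2.trans hB⟩) hqp hqp' with h1 | ⟨P, hP, hP'⟩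
    · have : Fact q.Prime := ⟨hqp⟩
      obtain ⟨⟨P, hP1, hP2⟩⟩ := (span {(q : ℤ)}).nonempty_primesOver (S := 𝓞 K)
      refine ⟨P, ⟨hP1, hP2⟩, Or.inl ?_⟩
      have hndvd : ¬ q ∣ p := fun hd => hqp' ((Nat.prime_dvd_prime_iff_eq hqp hp).1 hd)
      rw [IsCyclotomicExtension.Rat.inertiaDeg_eq_of_not_dvd q K P hndvd]
      by_contra hcon
      rw [not_lt] at hcon
      have hcop : q.Coprime p := (Nat.coprime_primes hqp hp).2 hqp'
      have hpos : 0 < orderOf (q : ZMod p) := by
        have : IsOfFinOrder (q : ZMod p) := by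
          have hu : IsUnit (q : ZMod p) := (ZMod.isUnit_iff_coprime q p).2 hcop
          exact hu.isOfFinOrder
        exact this.orderOf_pos
      apply h1 _ hpos (hcon.trans hB)
      have h2 : ((q ^ orderOf (q : ZMod p) : ℕ) : ZMod p) = ((1 : ℕ) : ZMod p) := by
        push_cast; exact pow_orderOf_eq_one _
      rw [ZMod.natCast_eq_natCast_iff'] at h2
      rw [h2, Nat.mod_eq_of_lt hp.one_lt]
    · exact ⟨P, hP, Or.inr hP'⟩

end Fermat.Agent.Lib.Kummer
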