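import Mathlib

set_option autoImplicit false

namespace Fermat.Agent.Lib.Kummer

theorem sieve_exp_lt {q k B : ℕ} (hq : 2 ≤ q) (h : q ^ k ≤ B) (hB : B < 2 ^ 9) : k < 9 := by
  by_contra hk
  rw [not_lt] at hk
  have h1 : 2 ^ 9 ≤ q ^ k :=
    calc 2 ^ 9 ≤ 2 ^ k := Nat.pow_le_pow_right (by norm_num) hk
      _ ≤ q ^ k := Nat.pow_le_pow_left hq k
  omega

theorem sieve_seven_aux : ∀ q ∈ Finset.Icc 1 4, ∀ k ∈ Finset.Ioo 0 9,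
    q.Prime → q ≠ 7 → q ^ k ≤ 4 → q ^ k % 7 ≠ 1 := by
  decide +kernel

theorem sieve_seven : ∀ q ∈ Finset.Icc 1 4, q.Prime → q ≠ 7 →
    ∀ k, 0 < k → q ^ k ≤ 4 → q ^ k % 7 ≠ 1 := by
  intro q hq hp h7 k hk hle
  have hk9 : k < 9 := sieve_exp_lt hp.two_le hle (by norm_num)
  exact sieve_seven_aux q hq k (Finset.mem_Ioo.mpr ⟨hk, hk9⟩) hp h7 hle

theorem sieve_eleven_aux : ∀ q ∈ Finset.Icc 1 59, ∀ k ∈ Finset.Ioo 0 9,
    q.Prime → q ≠ 11 → q ≠ 23 → q ^ k ≤ 59 → q ^ k % 11 ≠ 1 := by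
  decide +kernel

theorem sieve_eleven : ∀ q ∈ Finset.Icc 1 59, q.Prime → q ≠ 11 →
    (∀ k, 0 < k → q ^ k ≤ 59 → q ^ k % 11 ≠ 1) ∨ q = 23 := by
  intro q hq hp h11
  by_cases h23 : q = 23
  · exact Or.inr h23
  · refine Or.inl fun k hk hle => ?_
    have hk9 : k < 9 := sieve_exp_lt hp.two_le hle (by norm_num)
    exact sieve_eleven_aux q hq k (Finset.mem_Ioo.mpr ⟨hk, hk9⟩) hp h11 h23 hle

theorem sieve_thirteen_aux : ∀ q ∈ Finset.Icc 1 309, ∀ k ∈ Finset.Ioo 0 9,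
    q.Prime → q ≠ 13 → q ≠ 3 → q ≠ 53 → q ≠ 79 → q ≠ 131 → q ≠ 157 →
    q ^ k ≤ 309 → q ^ k % 13 ≠ 1 := by
  decide +kernel

theorem sieve_thirteen : ∀ q ∈ Finset.Icc 1 309, q.Prime → q ≠ 13 →
    (∀ k, 0 < k → q ^ k ≤ 309 → q ^ k % 13 ≠ 1) ∨
      q = 3 ∨ q = 53 ∨ q = 79 ∨ q = 131 ∨ q = 157 := by
  intro q hq hp h13
  by_cases h3 : q = 3
  · exact Or.inr (Or.inl h3)
  by_cases h53 : q = 53
  · exact Or.inr (Or.inr (Or.inl h53))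
  by_cases h79 : q = 79
  · exact Or.inr (Or.inr (Or.inr (Or.inl h79)))
  by_cases h131 : q = 131
  · exact Or.inr (Or.inr (Or.inr (Or.inr (Or.inl h131))))
  by_cases h157 : q = 157
  · exact Or.inr (Or.inr (Or.inr (Or.inr (Or.inr h157))))
  refine Or.inl fun k hk hle => ?_
  have hk9 : k < 9 := sieve_exp_lt hp.two_le hle (by norm_num)
  exact sieve_thirteen_aux q hq k (Finset.mem_Ioo.mpr ⟨hk, hk9⟩) hp h13 h3 h53 h79 h131 h157 hle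

end Fermat.Agent.Lib.Kummer
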