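import Mathlib
import Fermat.Agent.Lib.Kummer.PIDGeneral
import Fermat.Agent.Lib.Kummer.PIDSieve
import Fermat.Agent.Lib.Kummer.MinkowskiBound

set_option autoImplicit false

open NumberField Polynomial Ideal Module InfinitePlace Nat Real

namespace Fermat.Agent.Lib.Kummer

theorem exists_principal_eleven_23 (K : Type*) [Field K] [NumberField K]
    [IsCyclotomicExtension {11} ℚ K] :
    ∃ P ∈ primesOver (span {((23 : ℕ) : ℤ)}) (𝓞 K), Submodule.IsPrincipal P := by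
  have hζ := IsCyclotomicExtension.zeta_spec 11 ℚ K
  have : Fact (Nat.Prime 23) := ⟨by norm_num⟩
  have : Fact (Nat.Prime 11) := ⟨by norm_num⟩
  set ζ := hζ.toInteger with hζdef
  have hΦ : 1 + ζ + ζ ^ 2 + ζ ^ 3 + ζ ^ 4 + ζ ^ 5 + ζ ^ 6 + ζ ^ 7 + ζ ^ 8 + ζ ^ 9 + ζ ^ 10 = 0 := by
    have := hζ.toInteger_isPrimitiveRoot.geom_sum_eq_zero (by norm_num)
    simpa [Finset.sum_range_succ] using this
  refine exists_isPrincipal_mem_primesOver hζ 23 (X - C 13)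
    (11488207654 + 883708281 * X + 67977560 * X ^ 2 + 5229043 * X ^ 3 + 402234 * X ^ 4 + 30941 * X ^ 5 + 2380 * X ^ 6 + 183 * X ^ 7 + 14 * X ^ 8 + X ^ 9)
    6493334761 (monic_X_sub_C _) ?_ ?_
    (1 - ζ + ζ ^ 3)
    (8 - 2 * ζ - ζ ^ 2 - 8 * ζ ^ 3 - 5 * ζ ^ 4 - 3 * ζ ^ 5 + 6 * ζ ^ 6 + 12 * ζ ^ 7 + 16 * ζ ^ 8 + 11 * ζ ^ 9)
    (-5 + ζ + 4 * ζ ^ 3 + 2 * ζ ^ 4 + ζ ^ 5 - 4 * ζ ^ 6 - 7 * ζ ^ 7 - 9 * ζ ^ 8 - 6 * ζ ^ 9)
    95 (168 + 13 * ζ + ζ ^ 2) ?_ ?_ ?_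
  · rw [Polynomial.map_sub, map_X, map_C]
    exact irreducible_X_sub_C _
  · rw [cyclotomic_prime]
    simp only [Finset.sum_range_succ, Finset.sum_range_zero]
    simp only [map_ofNat, Nat.cast_ofNat]
    ring
  · push_cast
    linear_combination (-15 + 5 * ζ + 11 * ζ ^ 2) * hΦ
  · simp only [map_sub, aeval_X, map_ofNat]
    linear_combination (8 - 3 * ζ - 6 * ζ ^ 2) * hΦ
  · simp only [map_sub, aeval_X, map_ofNat]
    push_cast
    ring


theorem eleven_pid (K : Type*) [Field K] [NumberField K] [IsCyclotomicExtension {11} ℚ K] :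
    IsPrincipalIdealRing (𝓞 K) := by
  have : Fact (Nat.Prime 11) := ⟨by norm_num⟩
  refine isPrincipalIdealRing_of_bound (p := 11) K 59
    ((minkowski_eleven K).trans (by norm_num)) fun q hq hqp hq11 => ?_
  rcases sieve_eleven q hq hqp hq11 with h | rfl
  · exact Or.inl h
  · exact Or.inr (exists_principal_eleven_23 K)

theorem pid_eleven : IsPrincipalIdealRing (𝓞 (CyclotomicField 11 ℚ)) := by
  have : IsCyclotomicExtension {11} ℚ (CyclotomicField 11 ℚ) :=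
    CyclotomicField.isCyclotomicExtension 11 ℚ
  exact eleven_pid _

end Fermat.Agent.Lib.Kummer
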