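import Mathlib
import Fermat.Agent.Lib.Kummer.PIDGeneral
import Fermat.Agent.Lib.Kummer.PIDSieve
import Fermat.Agent.Lib.Kummer.MinkowskiBound

set_option autoImplicit false

open NumberField Polynomial Ideal Module InfinitePlace Nat Real

namespace Fermat.Agent.Lib.Kummer

theorem cubic_mod_three_no_root : ∀ x : ZMod 3, ¬ x ^ 3 + 2 * x + 2 = 0 := by decide

theorem irreducible_cubic_mod_three :
    Irreducible ((X ^ 3 + 2 * X + 2 : ℤ[X]).map (Int.castRingHom (ZMod 3))) := by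
  have : Fact (Nat.Prime 3) := ⟨by norm_num⟩
  have hmap : (X ^ 3 + 2 * X + 2 : ℤ[X]).map (Int.castRingHom (ZMod 3))
      = (X ^ 3 + 2 * X + 2 : (ZMod 3)[X]) := by
    simp [Polynomial.map_add, Polynomial.map_mul, Polynomial.map_pow]
  rw [hmap]
  have hdeg : (X ^ 3 + 2 * X + 2 : (ZMod 3)[X]).natDegree = 3 := by
    compute_degree!
  apply irreducible_of_degree_le_three_of_not_isRoot
  · rw [hdeg]; decide
  · intro x
    simp only [IsRoot.def, eval_add, eval_pow, eval_X, eval_mul, eval_ofNat]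
    exact cubic_mod_three_no_root x

theorem exists_principal_thirteen_3 (K : Type*) [Field K] [NumberField K]
    [IsCyclotomicExtension {13} ℚ K] :
    ∃ P ∈ primesOver (span {((3 : ℕ) : ℤ)}) (𝓞 K), Submodule.IsPrincipal P := by
  have hζ := IsCyclotomicExtension.zeta_spec 13 ℚ K
  have : Fact (Nat.Prime 3) := ⟨by norm_num⟩
  have : Fact (Nat.Prime 13) := ⟨by norm_num⟩
  set ζ := hζ.toInteger with hζdef
  have hΦ : 1 + ζ + ζ ^ 2 + ζ ^ 3 + ζ ^ 4 + ζ ^ 5 + ζ ^ 6 + ζ ^ 7 + ζ ^ 8 + ζ ^ 9 + ζ ^ 10 + ζ ^ 11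
      + ζ ^ 12 = 0 := by
    have := hζ.toInteger_isPrimitiveRoot.geom_sum_eq_zero (by norm_num)
    simpa [Finset.sum_range_succ] using this
  refine exists_isPrincipal_mem_primesOver hζ 3 (X ^ 3 + 2 * X + 2)
    (29 - 27 * X - 19 * X ^ 2 + 5 * X ^ 3 + 9 * X ^ 4 + X ^ 5 - 3 * X ^ 6 - X ^ 7 + X ^ 8 + X ^ 9)
    (-19 - X + 31 * X ^ 2) (by monicity!) irreducible_cubic_mod_three ?_
    (1 + ζ - ζ ^ 3)
    (-1 - ζ ^ 2 - ζ ^ 3 - 2 * ζ ^ 5 - ζ ^ 7 - 2 * ζ ^ 8 + ζ ^ 9 - 3 * ζ ^ 10)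
    (-2 - ζ - ζ ^ 2 - 2 * ζ ^ 3 - ζ ^ 4 - 2 * ζ ^ 5 - 2 * ζ ^ 6 - ζ ^ 7 - 3 * ζ ^ 8 - ζ ^ 9
      - 2 * ζ ^ 10 - 3 * ζ ^ 11)
    (1 + ζ) (-1) ?_ ?_ ?_
  · rw [cyclotomic_prime]
    simp only [Finset.sum_range_succ, Finset.sum_range_zero]
    simp only [Nat.cast_ofNat]
    ring
  · push_cast
    linear_combination (-4 + 3 * ζ) * hΦ
  · simp only [map_add, map_mul, map_pow, aeval_X, map_ofNat]
    linear_combination (-4 - ζ + 3 * ζ ^ 2) * hΦ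
  · simp only [map_add, map_mul, map_pow, aeval_X, map_ofNat]
    push_cast
    ring


theorem exists_principal_thirteen_53 (K : Type*) [Field K] [NumberField K]
    [IsCyclotomicExtension {13} ℚ K] :
    ∃ P ∈ primesOver (span {((53 : ℕ) : ℤ)}) (𝓞 K), Submodule.IsPrincipal P := by
  have hζ := IsCyclotomicExtension.zeta_spec 13 ℚ K
  have : Fact (Nat.Prime 53) := ⟨by norm_num⟩
  have : Fact (Nat.Prime 13) := ⟨by norm_num⟩
  set ζ := hζ.toInteger with hζdef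
  have hΦ : 1 + ζ + ζ ^ 2 + ζ ^ 3 + ζ ^ 4 + ζ ^ 5 + ζ ^ 6 + ζ ^ 7 + ζ ^ 8 + ζ ^ 9 + ζ ^ 10 + ζ ^ 11 + ζ ^ 12 = 0 := by
    have := hζ.toInteger_isPrimitiveRoot.geom_sum_eq_zero (by norm_num)
    simpa [Finset.sum_range_succ] using this
  refine exists_isPrincipal_mem_primesOver hζ 53 (X - C 16)
    (18764998447377 + 1172812402961 * X + 73300775185 * X ^ 2 + 4581298449 * X ^ 3 + 286331153 * X ^ 4 + 17895697 * X ^ 5 + 1118481 * X ^ 6 + 69905 * X ^ 7 + 4369 * X ^ 8 + 273 * X ^ 9 + 17 * X ^ 10 + X ^ 11)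
    (5664905191661) (monic_X_sub_C _) ?_ ?_
    (1 - ζ + ζ ^ 3)
    (25 + 10 * ζ + 19 * ζ ^ 2 + 3 * ζ ^ 3 + 2 * ζ ^ 4 - 8 * ζ ^ 5 - 2 * ζ ^ 6 + 5 * ζ ^ 7 + 22 * ζ ^ 8 + 33 * ζ ^ 9 + 37 * ζ ^ 10 + 24 * ζ ^ 11)
    (-8 - 3 * ζ - 6 * ζ ^ 2 - ζ ^ 3 - ζ ^ 4 + 2 * ζ ^ 5 - 2 * ζ ^ 7 - 7 * ζ ^ 8 - 10 * ζ ^ 9 - 11 * ζ ^ 10 - 7 * ζ ^ 11)
    (77) (255 + 16 * ζ + ζ ^ 2) ?_ ?_ ?_
  · rw [Polynomial.map_sub, map_X, map_C]
    exact irreducible_X_sub_C _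
  · rw [cyclotomic_prime]
    simp only [Finset.sum_range_succ, Finset.sum_range_zero]
    simp only [map_ofNat, Nat.cast_ofNat]
    ring
  · push_cast
    linear_combination (-28 + 13 * ζ + 24 * ζ ^ 2) * hΦ
  · simp only [map_sub, aeval_X, map_ofNat]
    linear_combination (8 - 4 * ζ - 7 * ζ ^ 2) * hΦ
  · simp only [map_sub, aeval_X, map_ofNat]
    push_cast
    ring

theorem exists_principal_thirteen_79 (K : Type*) [Field K] [NumberField K]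
    [IsCyclotomicExtension {13} ℚ K] :
    ∃ P ∈ primesOver (span {((79 : ℕ) : ℤ)}) (𝓞 K), Submodule.IsPrincipal P := by
  have hζ := IsCyclotomicExtension.zeta_spec 13 ℚ K
  have : Fact (Nat.Prime 79) := ⟨by norm_num⟩
  have : Fact (Nat.Prime 13) := ⟨by norm_num⟩
  set ζ := hζ.toInteger with hζdef
  have hΦ : 1 + ζ + ζ ^ 2 + ζ ^ 3 + ζ ^ 4 + ζ ^ 5 + ζ ^ 6 + ζ ^ 7 + ζ ^ 8 + ζ ^ 9 + ζ ^ 10 + ζ ^ 11 + ζ ^ 12 = 0 := by
    have := hζ.toInteger_isPrimitiveRoot.geom_sum_eq_zero (by norm_num)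
    simpa [Finset.sum_range_succ] using this
  refine exists_isPrincipal_mem_primesOver hζ 79 (X - C 62)
    (52889619055703275755 + 853058371866181867 * X + 13759005997841643 * X ^ 2 + 221919451578091 * X ^ 3 + 3579345993195 * X ^ 4 + 57731386987 * X ^ 5 + 931151403 * X ^ 6 + 15018571 * X ^ 7 + 242235 * X ^ 8 + 3907 * X ^ 9 + 63 * X ^ 10 + X ^ 11)
    (41508308625994975909) (monic_X_sub_C _) ?_ ?_
    (1 - ζ - ζ ^ 4)
    (62 + 63 * ζ + 49 * ζ ^ 2 + 8 * ζ ^ 3 + 29 * ζ ^ 4 + 51 * ζ ^ 5 + 59 * ζ ^ 6 + 26 * ζ ^ 7 + 14 * ζ ^ 8 + 24 * ζ ^ 9 + 42 * ζ ^ 10 + 27 * ζ ^ 11)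
    (-49 - 49 * ζ - 38 * ζ ^ 2 - 6 * ζ ^ 3 - 23 * ζ ^ 4 - 40 * ζ ^ 5 - 46 * ζ ^ 6 - 20 * ζ ^ 7 - 11 * ζ ^ 8 - 19 * ζ ^ 9 - 33 * ζ ^ 10 - 21 * ζ ^ 11)
    (-187043) (-238329 - 3844 * ζ - 62 * ζ ^ 2 - ζ ^ 3) ?_ ?_ ?_
  · rw [Polynomial.map_sub, map_X, map_C]
    exact irreducible_X_sub_C _
  · rw [cyclotomic_prime]
    simp only [Finset.sum_range_succ, Finset.sum_range_zero]
    simp only [map_ofNat, Nat.cast_ofNat]
    ring
  · push_cast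
    linear_combination (-17 + 18 * ζ - 15 * ζ ^ 2 - 27 * ζ ^ 3) * hΦ
  · simp only [map_sub, aeval_X, map_ofNat]
    linear_combination (13 - 14 * ζ + 12 * ζ ^ 2 + 21 * ζ ^ 3) * hΦ
  · simp only [map_sub, aeval_X, map_ofNat]
    push_cast
    ring

theorem exists_principal_thirteen_131 (K : Type*) [Field K] [NumberField K]
    [IsCyclotomicExtension {13} ℚ K] :
    ∃ P ∈ primesOver (span {((131 : ℕ) : ℤ)}) (𝓞 K), Submodule.IsPrincipal P := by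
  have hζ := IsCyclotomicExtension.zeta_spec 13 ℚ K
  have : Fact (Nat.Prime 131) := ⟨by norm_num⟩
  have : Fact (Nat.Prime 13) := ⟨by norm_num⟩
  set ζ := hζ.toInteger with hζdef
  have hΦ : 1 + ζ + ζ ^ 2 + ζ ^ 3 + ζ ^ 4 + ζ ^ 5 + ζ ^ 6 + ζ ^ 7 + ζ ^ 8 + ζ ^ 9 + ζ ^ 10 + ζ ^ 11 + ζ ^ 12 = 0 := by
    have := hζ.toInteger_isPrimitiveRoot.geom_sum_eq_zero (by norm_num)
    simpa [Finset.sum_range_succ] using this
  refine exists_isPrincipal_mem_primesOver hζ 131 (X - C 80)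
    (869866794126582278481 + 10873334926582278481 * X + 135916686582278481 * X ^ 2 + 1698958582278481 * X ^ 3 + 21236982278481 * X ^ 4 + 265462278481 * X ^ 5 + 3318278481 * X ^ 6 + 41478481 * X ^ 7 + 518481 * X ^ 8 + 6481 * X ^ 9 + 81 * X ^ 10 + X ^ 11)
    (531216362825393757851) (monic_X_sub_C _) ?_ ?_
    (1 - ζ - ζ ^ 3)
    (111 + 78 * ζ + 17 * ζ ^ 2 + 67 * ζ ^ 3 + 84 * ζ ^ 4 + 40 * ζ ^ 5 + 46 * ζ ^ 6 + 69 * ζ ^ 7 + 48 * ζ ^ 8 + 33 * ζ ^ 9 + 41 * ζ ^ 10 + 28 * ζ ^ 11)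
    (-68 - 47 * ζ - 10 * ζ ^ 2 - 41 * ζ ^ 3 - 51 * ζ ^ 4 - 24 * ζ ^ 5 - 28 * ζ ^ 6 - 42 * ζ ^ 7 - 29 * ζ ^ 8 - 20 * ζ ^ 9 - 25 * ζ ^ 10 - 17 * ζ ^ 11)
    (-3909) (-6401 - 80 * ζ - ζ ^ 2) ?_ ?_ ?_
  · rw [Polynomial.map_sub, map_X, map_C]
    exact irreducible_X_sub_C _
  · rw [cyclotomic_prime]
    simp only [Finset.sum_range_succ, Finset.sum_range_zero]
    simp only [map_ofNat, Nat.cast_ofNat]
    ring
  · push_cast
    linear_combination (-20 - 13 * ζ - 28 * ζ ^ 2) * hΦ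
  · simp only [map_sub, aeval_X, map_ofNat]
    linear_combination (12 + 8 * ζ + 17 * ζ ^ 2) * hΦ
  · simp only [map_sub, aeval_X, map_ofNat]
    push_cast
    ring

theorem exists_principal_thirteen_157 (K : Type*) [Field K] [NumberField K]
    [IsCyclotomicExtension {13} ℚ K] :
    ∃ P ∈ primesOver (span {((157 : ℕ) : ℤ)}) (𝓞 K), Submodule.IsPrincipal P := by
  have hζ := IsCyclotomicExtension.zeta_spec 13 ℚ K
  have : Fact (Nat.Prime 157) := ⟨by norm_num⟩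
  have : Fact (Nat.Prime 13) := ⟨by norm_num⟩
  set ζ := hζ.toInteger with hζdef
  have hΦ : 1 + ζ + ζ ^ 2 + ζ ^ 3 + ζ ^ 4 + ζ ^ 5 + ζ ^ 6 + ζ ^ 7 + ζ ^ 8 + ζ ^ 9 + ζ ^ 10 + ζ ^ 11 + ζ ^ 12 = 0 := by
    have := hζ.toInteger_isPrimitiveRoot.geom_sum_eq_zero (by norm_num)
    simpa [Finset.sum_range_succ] using this
  refine exists_isPrincipal_mem_primesOver hζ 157 (X - C 75)
    (428058811136194177576 + 5707450815149255701 * X + 76099344201990076 * X ^ 2 + 1014657922693201 * X ^ 3 + 13528772302576 * X ^ 4 + 180383630701 * X ^ 5 + 2405115076 * X ^ 6 + 32068201 * X ^ 7 + 427576 * X ^ 8 + 5701 * X ^ 9 + 76 * X ^ 10 + X ^ 11)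
    (204486693217927154893) (monic_X_sub_C _) ?_ ?_
    (1 - ζ + ζ ^ 2 + ζ ^ 4)
    (89 + 86 * ζ + 42 * ζ ^ 2 + 77 * ζ ^ 3 + 67 * ζ ^ 4 + 25 * ζ ^ 5 + 37 * ζ ^ 6 + 56 * ζ ^ 7 + 73 * ζ ^ 8 + 113 * ζ ^ 9 + 124 * ζ ^ 10 + 76 * ζ ^ 11)
    (-43 - 41 * ζ - 20 * ζ ^ 2 - 37 * ζ ^ 3 - 32 * ζ ^ 4 - 12 * ζ ^ 5 - 18 * ζ ^ 6 - 27 * ζ ^ 7 - 35 * ζ ^ 8 - 54 * ζ ^ 9 - 59 * ζ ^ 10 - 36 * ζ ^ 11)
    (201568) (421949 + 5626 * ζ + 75 * ζ ^ 2 + ζ ^ 3) ?_ ?_ ?_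
  · rw [Polynomial.map_sub, map_X, map_C]
    exact irreducible_X_sub_C _
  · rw [cyclotomic_prime]
    simp only [Finset.sum_range_succ, Finset.sum_range_zero]
    simp only [map_ofNat, Nat.cast_ofNat]
    ring
  · push_cast
    linear_combination (-68 + 65 * ζ + 48 * ζ ^ 2 + 76 * ζ ^ 3) * hΦ
  · simp only [map_sub, aeval_X, map_ofNat]
    linear_combination (32 - 31 * ζ - 23 * ζ ^ 2 - 36 * ζ ^ 3) * hΦ
  · simp only [map_sub, aeval_X, map_ofNat]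
    push_cast
    ring


theorem thirteen_pid (K : Type*) [Field K] [NumberField K] [IsCyclotomicExtension {13} ℚ K] :
    IsPrincipalIdealRing (𝓞 K) := by
  have : Fact (Nat.Prime 13) := ⟨by norm_num⟩
  refine isPrincipalIdealRing_of_bound (p := 13) K 309
    ((minkowski_thirteen K).trans (by norm_num)) fun q hq hqp hq13 => ?_
  rcases sieve_thirteen q hq hqp hq13 with h | rfl | rfl | rfl | rfl | rfl
  · exact Or.inl h
  · exact Or.inr (exists_principal_thirteen_3 K)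
  · exact Or.inr (exists_principal_thirteen_53 K)
  · exact Or.inr (exists_principal_thirteen_79 K)
  · exact Or.inr (exists_principal_thirteen_131 K)
  · exact Or.inr (exists_principal_thirteen_157 K)

theorem pid_thirteen : IsPrincipalIdealRing (𝓞 (CyclotomicField 13 ℚ)) := by
  have : IsCyclotomicExtension {13} ℚ (CyclotomicField 13 ℚ) :=
    CyclotomicField.isCyclotomicExtension 13 ℚ
  exact thirteen_pid _

end Fermat.Agent.Lib.Kummer
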