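import Mathlib
import Fermat.Agent.Lib.Kummer.PIDGeneral
import Fermat.Agent.Lib.Kummer.PIDSieve
import Fermat.Agent.Lib.Kummer.MinkowskiBound

set_option autoImplicit false

open NumberField Polynomial Ideal Module InfinitePlace Nat Real

namespace Fermat.Agent.Lib.Kummer

theorem seven_pid (K : Type*) [Field K] [NumberField K] [IsCyclotomicExtension {7} ℚ K] :
    IsPrincipalIdealRing (𝓞 K) := by
  have : Fact (Nat.Prime 7) := ⟨by norm_num⟩
  refine isPrincipalIdealRing_of_bound (p := 7) K 4 (minkowski_seven K) fun q hq hqp hq7 =>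
    Or.inl (sieve_seven q hq hqp hq7)

theorem pid_seven : IsPrincipalIdealRing (𝓞 (CyclotomicField 7 ℚ)) := by
  have : IsCyclotomicExtension {7} ℚ (CyclotomicField 7 ℚ) :=
    CyclotomicField.isCyclotomicExtension 7 ℚ
  exact seven_pid _

end Fermat.Agent.Lib.Kummer
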