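import Mathlib
import Fermat.Agent.Lib.Kummer.Defs

set_option autoImplicit false

namespace Fermat.Agent.Lib.Kummer

open Finset

/-- The cofactor `(y ^ p + z ^ p) / (y + z)`. -/
def sgPhi {R : Type*} [CommRing R] (p : ℕ) (y z : R) : R :=
  ∑ i ∈ range p, y ^ i * (-z) ^ (p - 1 - i)

theorem sgPhi_mul {R : Type*} [CommRing R] {p : ℕ} (hp : Odd p) (y z : R) :
    (y + z) * sgPhi p y z = y ^ p + z ^ p := by
  have h := geom_sum₂_mul y (-z) p
  rw [hp.neg_pow] at h
  rw [sgPhi, mul_comm]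
  linear_combination h

theorem sgPhi_map {R S : Type*} [CommRing R] [CommRing S] (f : R →+* S) (p : ℕ) (y z : R) :
    f (sgPhi p y z) = sgPhi p (f y) (f z) := by
  simp [sgPhi, map_sum]

theorem sgPhi_of_add_eq_zero {R : Type*} [CommRing R] (p : ℕ) {y z : R} (h : y + z = 0) :
    sgPhi p y z = p * y ^ (p - 1) := by
  have hz : -z = y := by linear_combination (-1 : R) * h
  rw [sgPhi, hz, geom_sum₂_self]

theorem sgPhi_zero_left {R : Type*} [CommRing R] {p : ℕ} (hp : Odd p) (y : R) :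
    sgPhi p 0 y = y ^ (p - 1) := by
  obtain ⟨k, rfl⟩ := hp
  rw [sgPhi, Finset.sum_range_succ']
  simp [Even.neg_pow (even_two_mul k)]

theorem sg_isCoprime {p : ℕ} (hp : p.Prime) {y z : ℤ} (hyz : IsCoprime y z)
    (hpyz : ¬ (p : ℤ) ∣ y + z) : IsCoprime (y + z) (sgPhi p y z) := by
  apply isCoprime_of_prime_dvd
  · rintro ⟨h0, -⟩
    exact hpyz (h0 ▸ dvd_zero _)
  · intro r hr hr1 hr2
    have hsub : r ∣ y - (-z) := by simpa using hr1
    rw [sgPhi, dvd_geom_sum₂_iff_of_dvd_sub' hsub] at hr2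
    rcases hr.dvd_or_dvd hr2 with h | h
    · have hpp : Prime (p : ℤ) := Nat.prime_iff_prime_int.mp hp
      have hass : Associated r (p : ℤ) := hr.associated_of_dvd hpp h
      exact hpyz (hass.symm.dvd.trans hr1)
    · have hy : r ∣ y := hr.dvd_of_dvd_pow h
      have hz : r ∣ z := (dvd_add_right hy).mp hr1
      exact hr.not_isUnit (hyz.isUnit_of_dvd' hy hz)

/-- the core step: the auxiliary prime cannot divide `x`. -/
theorem sg_core {p q : ℕ} (hp : p.Prime) (hp2 : p ≠ 2) (hq : q.Prime)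
    (h1 : ∀ x y z : ZMod q, x ^ p + y ^ p + z ^ p = 0 → x = 0 ∨ y = 0 ∨ z = 0)
    (h2 : ∀ x : ZMod q, x ^ p ≠ (p : ZMod q))
    {x y z : ℤ} (hxy : IsCoprime x y) (hyz : IsCoprime y z) (hzx : IsCoprime z x)
    (h : x ^ p + y ^ p + z ^ p = 0)
    (hpx : ¬ (p : ℤ) ∣ x) (hpy : ¬ (p : ℤ) ∣ y) (hpz : ¬ (p : ℤ) ∣ z)
    (hqx : (q : ℤ) ∣ x) : False := by
  have : Fact q.Prime := ⟨hq⟩
  have hodd : Odd p := hp.odd_of_ne_two hp2
  have hpp : Prime (p : ℤ) := Nat.prime_iff_prime_int.mp hp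
  have hqq : Prime (q : ℤ) := Nat.prime_iff_prime_int.mp hq
  have e1 : (y + z) * sgPhi p y z = (-x) ^ p := by
    rw [sgPhi_mul hodd, hodd.neg_pow]; linear_combination h
  have e2 : (z + x) * sgPhi p z x = (-y) ^ p := by
    rw [sgPhi_mul hodd, hodd.neg_pow]; linear_combination h
  have e3 : (x + y) * sgPhi p x y = (-z) ^ p := by
    rw [sgPhi_mul hodd, hodd.neg_pow]; linear_combination h
  have n1 : ¬ (p : ℤ) ∣ y + z := fun hd =>
    hpx ((dvd_neg.mp (hpp.dvd_of_dvd_pow ((hd.mul_right _).trans e1.dvd))))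
  have n2 : ¬ (p : ℤ) ∣ z + x := fun hd =>
    hpy ((dvd_neg.mp (hpp.dvd_of_dvd_pow ((hd.mul_right _).trans e2.dvd))))
  have n3 : ¬ (p : ℤ) ∣ x + y := fun hd =>
    hpz ((dvd_neg.mp (hpp.dvd_of_dvd_pow ((hd.mul_right _).trans e3.dvd))))
  obtain ⟨⟨a, ha⟩, ⟨al, hal⟩⟩ := Int.eq_pow_of_mul_eq_pow_odd (sg_isCoprime hp hyz n1) hodd e1
  obtain ⟨⟨b, hb⟩, -⟩ := Int.eq_pow_of_mul_eq_pow_odd (sg_isCoprime hp hzx n2) hodd e2
  obtain ⟨⟨c, hc⟩, ⟨ga, hga⟩⟩ := Int.eq_pow_of_mul_eq_pow_odd (sg_isCoprime hp hxy n3) hodd e3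
  have hx0 : (x : ZMod q) = 0 := (ZMod.intCast_zmod_eq_zero_iff_dvd x q).mpr hqx
  have hy0 : (y : ZMod q) ≠ 0 := fun h0 =>
    hqq.not_isUnit (hxy.isUnit_of_dvd' hqx ((ZMod.intCast_zmod_eq_zero_iff_dvd y q).mp h0))
  have hz0 : (z : ZMod q) ≠ 0 := fun h0 =>
    hqq.not_isUnit (hzx.isUnit_of_dvd' ((ZMod.intCast_zmod_eq_zero_iff_dvd z q).mp h0) hqx)
  have ha' : (y : ZMod q) + z = (a : ZMod q) ^ p := by exact_mod_cast congrArg (Int.cast : ℤ → ZMod q) ha
  have hb' : (z : ZMod q) + x = (b : ZMod q) ^ p := by exact_mod_cast congrArg (Int.cast : ℤ → ZMod q) hb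
  have hc' : (x : ZMod q) + y = (c : ZMod q) ^ p := by exact_mod_cast congrArg (Int.cast : ℤ → ZMod q) hc
  have hsum : (b : ZMod q) ^ p + (c : ZMod q) ^ p + (-(a : ZMod q)) ^ p = 0 := by
    rw [hodd.neg_pow, ← ha', ← hb', ← hc', hx0]; ring
  rcases h1 _ _ _ hsum with hb0 | hc0 | ha0
  · rw [hb0, zero_pow hp.ne_zero, hx0, add_zero] at hb'
    exact hz0 hb'
  · rw [hc0, zero_pow hp.ne_zero, hx0, zero_add] at hc'
    exact hy0 hc'
  · rw [neg_eq_zero] at ha0
    rw [ha0, zero_pow hp.ne_zero] at ha'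
    have hal' : sgPhi p (y : ZMod q) (z : ZMod q) = (al : ZMod q) ^ p := by
      have := congrArg (Int.castRingHom (ZMod q)) hal
      rw [sgPhi_map, map_pow] at this
      simpa using this
    have hga' : sgPhi p (x : ZMod q) (y : ZMod q) = (ga : ZMod q) ^ p := by
      have := congrArg (Int.castRingHom (ZMod q)) hga
      rw [sgPhi_map, map_pow] at this
      simpa using this
    rw [sgPhi_of_add_eq_zero p ha'] at hal'
    rw [hx0, sgPhi_zero_left hodd] at hga'
    have hga0 : (ga : ZMod q) ≠ 0 := by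
      intro h0
      rw [h0, zero_pow hp.ne_zero] at hga'
      exact hy0 (pow_eq_zero_iff (n := p - 1) (by have := hp.two_le; omega) |>.mp hga')
    apply h2 ((al : ZMod q) / ga)
    rw [div_pow, ← hal', ← hga', mul_div_assoc, div_self (pow_ne_zero _ hy0), mul_one]

/-- **Sophie Germain's theorem** (pairwise coprime form). -/
theorem sophieGermain {p q : ℕ} (hp : p.Prime) (hp2 : p ≠ 2) (hq : q.Prime)
    (h1 : ∀ x y z : ZMod q, x ^ p + y ^ p + z ^ p = 0 → x = 0 ∨ y = 0 ∨ z = 0)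
    (h2 : ∀ x : ZMod q, x ^ p ≠ (p : ZMod q))
    {x y z : ℤ} (hxy : IsCoprime x y) (hyz : IsCoprime y z) (hzx : IsCoprime z x)
    (h : x ^ p + y ^ p + z ^ p = 0) : (p : ℤ) ∣ x * y * z := by
  by_contra hcon
  have hpx : ¬ (p : ℤ) ∣ x := fun hd => hcon ((hd.mul_right y).mul_right z)
  have hpy : ¬ (p : ℤ) ∣ y := fun hd => hcon ((hd.mul_left x).mul_right z)
  have hpz : ¬ (p : ℤ) ∣ z := fun hd => hcon (hd.mul_left (x * y))
  have hmod : (x : ZMod q) ^ p + (y : ZMod q) ^ p + (z : ZMod q) ^ p = 0 := by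
    exact_mod_cast congrArg (Int.cast : ℤ → ZMod q) h
  rcases h1 _ _ _ hmod with h0 | h0 | h0
  · exact sg_core hp hp2 hq h1 h2 hxy hyz hzx h hpx hpy hpz
      ((ZMod.intCast_zmod_eq_zero_iff_dvd x q).mp h0)
  · exact sg_core hp hp2 hq h1 h2 hyz hzx hxy (by linear_combination h) hpy hpz hpx
      ((ZMod.intCast_zmod_eq_zero_iff_dvd y q).mp h0)
  · exact sg_core hp hp2 hq h1 h2 hzx hxy hyz (by linear_combination h) hpz hpx hpy
      ((ZMod.intCast_zmod_eq_zero_iff_dvd z q).mp h0)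

/-- Sophie Germain's criterion gives the first case in the form of `Defs.lean`. -/
theorem caseI_of_sophieGermain {p q : ℕ} (hp : p.Prime) (hp2 : p ≠ 2) (hq : q.Prime)
    (h1 : ∀ x y z : ZMod q, x ^ p + y ^ p + z ^ p = 0 → x = 0 ∨ y = 0 ∨ z = 0)
    (h2 : ∀ x : ZMod q, x ^ p ≠ (p : ZMod q)) : CaseI p := by
  intro a b c habc h
  have hodd : Odd p := hp.odd_of_ne_two hp2
  have ha0 : a ≠ 0 := by
    rintro rfl
    exact habc (by simp)
  obtain ⟨a', b', hcop, ha', hb'⟩ : ∃ a' b' : ℤ, IsCoprime a' b' ∧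
      a = a' * (Int.gcd a b : ℤ) ∧ b = b' * (Int.gcd a b : ℤ) := by
    have hg : 0 < Int.gcd a b := Int.gcd_pos_of_ne_zero_left b ha0
    obtain ⟨a', b', hc, h1, h2⟩ := Int.exists_gcd_one hg
    exact ⟨a', b', Int.isCoprime_iff_gcd_eq_one.mpr hc, h1, h2⟩
  set d : ℤ := (Int.gcd a b : ℤ) with hd
  have hd0 : d ≠ 0 := by
    intro h0
    rw [h0, mul_zero] at ha'
    exact ha0 ha'
  have hdc : d ∣ c := by
    have : d ^ p ∣ c ^ p := by
      rw [← h, ha', hb', mul_pow, mul_pow]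
      exact dvd_add (dvd_mul_left _ _) (dvd_mul_left _ _)
    exact (Int.pow_dvd_pow_iff hp.ne_zero).mp this
  obtain ⟨c', hc'⟩ := hdc
  have h' : a' ^ p + b' ^ p = c' ^ p := by
    have hdp : d ^ p ≠ 0 := pow_ne_zero _ hd0
    apply mul_left_cancel₀ hdp
    rw [ha', hb', hc'] at h
    linear_combination h
  have hac : IsCoprime a' c' := by
    rw [← IsCoprime.pow_right_iff hp.pos, ← h']
    have : IsCoprime a' (b' ^ p) := hcop.pow_right
    have h3 : IsCoprime a' (b' ^ p + a' * a' ^ (p - 1)) := this.add_mul_left_right _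
    rwa [← pow_succ', Nat.sub_add_cancel hp.one_le, add_comm] at h3
  have hbc : IsCoprime b' c' := by
    rw [← IsCoprime.pow_right_iff hp.pos, ← h']
    have : IsCoprime b' (a' ^ p) := hcop.symm.pow_right
    have h3 : IsCoprime b' (a' ^ p + b' * b' ^ (p - 1)) := this.add_mul_left_right _
    rwa [← pow_succ', Nat.sub_add_cancel hp.one_le] at h3
  have hdvd := sophieGermain hp hp2 hq h1 h2 (x := a') (y := b') (z := -c') hcop
    hbc.neg_right hac.symm.neg_left (by rw [hodd.neg_pow]; linear_combination h')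
  apply habc
  have : a * b * c = (a' * b' * -c') * (-(d ^ 3)) := by
    rw [ha', hb', hc']; ring
  rw [this]
  exact hdvd.mul_right _

/-- Reduction of the two finite checks to the list of `p`-th powers modulo `q`. -/
theorem sg_check {p q : ℕ} (hq : q.Prime) (hp0 : p ≠ 0) (L : List (ZMod q))
    (hL : ∀ x : ZMod q, x ^ p = 0 ∨ x ^ p ∈ L)
    (hsum : ∀ u ∈ L, ∀ v ∈ L, ∀ w ∈ L, u + v + w ≠ 0) :
    ∀ x y z : ZMod q, x ^ p + y ^ p + z ^ p = 0 → x = 0 ∨ y = 0 ∨ z = 0 := by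
  have : Fact q.Prime := ⟨hq⟩
  intro x y z h
  rcases hL x with hx | hx
  · exact Or.inl ((pow_eq_zero_iff hp0).mp hx)
  rcases hL y with hy | hy
  · exact Or.inr (Or.inl ((pow_eq_zero_iff hp0).mp hy))
  rcases hL z with hz | hz
  · exact Or.inr (Or.inr ((pow_eq_zero_iff hp0).mp hz))
  exact absurd h (hsum _ hx _ hy _ hz)

theorem caseI_five : CaseI 5 := by
  refine caseI_of_sophieGermain (q := 11) (by norm_num) (by norm_num) (by norm_num)
    (sg_check (by norm_num) (by norm_num) [1, -1] (by decide) (by decide)) (by decide)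

theorem caseI_seven : CaseI 7 := by
  refine caseI_of_sophieGermain (q := 29) (by norm_num) (by norm_num) (by norm_num)
    (sg_check (by norm_num) (by norm_num) [1, -1, 12, -12] (by decide) (by decide)) (by decide)

theorem caseI_eleven : CaseI 11 := by
  refine caseI_of_sophieGermain (q := 23) (by norm_num) (by norm_num) (by norm_num)
    (sg_check (by norm_num) (by norm_num) [1, -1] (by decide) (by decide)) (by decide)

set_option maxRecDepth 100000 in
theorem caseI_thirteen : CaseI 13 := by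
  refine caseI_of_sophieGermain (q := 53) (by norm_num) (by norm_num) (by norm_num)
    (sg_check (by norm_num) (by norm_num) [1, -1, 23, -23] (by decide) (by decide)) (by decide)

end Fermat.Agent.Lib.Kummer
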